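import Fermat.Agent.S36.Kum.Bar
import Fermat.Agent.GAL.HeckeComm
import Fermat.Agent.RED.ES.SwapInv

/-!
# S36 / [DESC36] : descent of `KumBar` from the level `M₁ c q` to the level `M₁ q`
-/

set_option autoImplicit false
set_option linter.style.haveILetI false
set_option linter.unusedSectionVars false

noncomputable section

open AlgebraicCurve ModularCurve

namespace Fermat.Agent.S36.Kum

open Fermat.Agent.RED hiding Kb
open Fermat.Agent.S24 Fermat.Agent.RED.TorsES Fermat.Agent.GAL.HeckeComm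
  Fermat.Agent.GAL.FFBC

/-- degrees are multiplicative. -/
theorem finrankAlong_comp' {K X Y W : Type*} [Field K] [Field X] [Field Y] [Field W]
    [Algebra K X] [Algebra K Y] [Algebra K W] (φ : X →ₐ[K] Y) (ψ : Y →ₐ[K] W) :
    finrankAlong K (ψ.comp φ) = finrankAlong K φ * finrankAlong K ψ := by
  letI := algebraAlong φ
  letI := algebraAlong ψ
  letI := algebraAlong (ψ.comp φ)
  haveI : IsScalarTower X Y W := IsScalarTower.of_algebraMap_eq fun _ => rfl
  exact (Module.finrank_mul_finrank X Y W).symm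

theorem finrankAlong_pos_any {M M' : ℕ} [NeZero M] [NeZero M'] (φ : FN M →ₐ[Kb] FN M') :
    0 < finrankAlong Kb φ := by
  letI := algebraAlong φ
  haveI : Module.Finite (FN M) (FN M') := finiteAlong_any φ
  exact Module.finrank_pos

/-- the inclusion `F_M → F_{M'}` for `M ∣ M'`. -/
def inclLevel {M M' : ℕ} [NeZero M] [NeZero M'] (h : M ∣ M') : FN M →ₐ[Kb] FN M' :=
  haveI : NeZero (M' / M) := ⟨(Nat.div_pos (Nat.le_of_dvd (NeZero.pos M') h) (NeZero.pos M)).ne'⟩
  (castLevel (Nat.mul_div_cancel' h)).comp (heckeAlphaBar Kb M (M' / M))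

theorem coe_inclLevel {M M' : ℕ} [NeZero M] [NeZero M'] (h : M ∣ M') (x : FN M) :
    ((inclLevel h x : FN M') : LaurentSeries Kb) = x := by
  haveI : NeZero (M' / M) := ⟨(Nat.div_pos (Nat.le_of_dvd (NeZero.pos M') h) (NeZero.pos M)).ne'⟩
  rw [inclLevel, AlgHom.comp_apply, coe_castLevel, coe_heckeAlphaBar]

/-- **[DEG-BETA]** `deg β = deg α` at every level (`ℓ ∣ N` allowed). -/
theorem finrankAlong_beta_eq_alpha' (N ℓ : ℕ) [NeZero N] [NeZero ℓ] (hℓ : ℓ.Prime) :
    finrankAlong Kb (heckeBetaBar Kb N ℓ) = finrankAlong Kb (heckeAlphaBar Kb N ℓ) := by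
  have h1 : (heckeBetaBar Kb N ℓ).comp (inclLevel (one_dvd N)) =
      (inclLevel (Nat.mul_dvd_mul_right (one_dvd N) ℓ)).comp (heckeBetaBar Kb 1 ℓ) := by
    refine AlgHom.ext fun x => Subtype.ext ?_
    rw [AlgHom.comp_apply, AlgHom.comp_apply, coe_heckeBetaBar, coe_inclLevel, coe_inclLevel,
      coe_heckeBetaBar]
  have h2 : (heckeAlphaBar Kb N ℓ).comp (inclLevel (one_dvd N)) =
      (inclLevel (Nat.mul_dvd_mul_right (one_dvd N) ℓ)).comp (heckeAlphaBar Kb 1 ℓ) := by
    refine AlgHom.ext fun x => Subtype.ext ?_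
    rw [AlgHom.comp_apply, AlgHom.comp_apply, coe_heckeAlphaBar, coe_inclLevel, coe_inclLevel,
      coe_heckeAlphaBar]
  have h3 := congrArg (finrankAlong Kb) h1
  have h4 := congrArg (finrankAlong Kb) h2
  rw [finrankAlong_comp', finrankAlong_comp'] at h3 h4
  rw [RED.ES.finrankAlong_beta_eq_alpha 1 ℓ hℓ (by
    intro h; exact hℓ.one_lt.ne' (Nat.dvd_one.1 h)), ← h4] at h3
  exact Nat.eq_of_mul_eq_mul_left (finrankAlong_pos_any _) h3

/-- the abstract base change for `normAlong`. -/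
theorem normAlong_baseChange {K X Y Z W : Type*} [Field K] [Field X] [Field Y] [Field Z] [Field W]
    [Algebra K X] [Algebra K Y] [Algebra K Z] [Algebra K W]
    (a : X →ₐ[K] Y) (b : X →ₐ[K] Z) (a' : Z →ₐ[K] W) (b' : Y →ₐ[K] W)
    (hcomm : a'.comp b = b'.comp a)
    (fa : FiniteAlong K a) (fa' : FiniteAlong K a')
    (hgen : ∀ S : Subfield W, (∀ z : Z, a' z ∈ S) → (∀ y : Y, b' y ∈ S) → S = ⊤)
    (hdeg : finrankAlong K a' = finrankAlong K a) (f : Y) :
    normAlong a' (b' f) = b (normAlong a f) := by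
  letI := algebraAlong a
  letI := algebraAlong b
  letI := algebraAlong a'
  letI := algebraAlong b'
  letI := algebraAlong (b'.comp a)
  haveI : IsScalarTower X Y W := IsScalarTower.of_algebraMap_eq fun _ => rfl
  haveI : IsScalarTower X Z W := IsScalarTower.of_algebraMap_eq fun x =>
    (DFunLike.congr_fun hcomm x).symm
  haveI : Module.Finite X Y := fa
  haveI : Module.Finite Z W := fa'
  exact norm_baseChange (span_range_eq_top hgen) hdeg f

variable (M₁ c q : ℕ) [NeZero M₁] [NeZero c] [NeZero q]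

/-- **[NORM-C-α]** -/
theorem normAlong_alpha_betaUp (hq : q.Prime) (hqM : q ∣ M₁) (f : FN (M₁ * q)) :
    normAlong (heckeAlphaBar Kb (M₁ * c) q) (betaUp M₁ c q f) =
      heckeBetaBar Kb M₁ c (normAlong (heckeAlphaBar Kb M₁ q) f) := by
  refine normAlong_baseChange (heckeAlphaBar Kb M₁ q) (heckeBetaBar Kb M₁ c)
    (heckeAlphaBar Kb (M₁ * c) q) (betaUp M₁ c q) (square_comm M₁ c q) (finiteAlong_any _)
    (finiteAlong_any _) (square_gen M₁ c q) ?_ f
  rw [finrankAlong_alpha_of_dvd M₁ q hq hqM, finrankAlong_alpha_of_dvd (M₁ * c) q hq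
    (hqM.mul_right c)]

theorem square_comm_beta :
    (heckeBetaBar Kb (M₁ * c) q).comp (heckeBetaBar Kb M₁ c) =
      (betaUp M₁ c q).comp (heckeBetaBar Kb M₁ q) := by
  refine AlgHom.ext fun x => Subtype.ext ?_
  rw [AlgHom.comp_apply, AlgHom.comp_apply, coe_heckeBetaBar, coe_heckeBetaBar, coe_betaUp,
    coe_heckeBetaBar, qExpand_qExpand, qExpand_qExpand]
  exact ModularCurve.qExpand_congr (mul_comm _ _) _


/-- the square for `β_q` is generated: `[F_{M₁ c q} : β_q F_{M₁ c}] = q` is prime, and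
`betaUp (j) = j(T^c) ∉ β_q (F_{M₁ c}) ⊆ {series in T^q}` because `q ∤ c` (coefficient of `T^(-c)`). -/
theorem square_gen_beta (hq : q.Prime) (hqM : q ∣ M₁) (hqc : ¬ q ∣ c)
    (S : Subfield (FN (M₁ * c * q)))
    (h1 : ∀ z, heckeBetaBar Kb (M₁ * c) q z ∈ S) (h2 : ∀ y, betaUp M₁ c q y ∈ S) : S = ⊤ := by
  letI := algebraAlong (heckeBetaBar Kb (M₁ * c) q)
  have hdeg : Module.finrank (FN (M₁ * c)) (FN (M₁ * c * q)) = q := by
    have := finrankAlong_beta_eq_alpha' (M₁ * c) q hq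
    rw [finrankAlong_alpha_of_dvd (M₁ * c) q hq (hqM.mul_right c)] at this
    exact this
  haveI := IntermediateField.isSimpleOrder_of_finrank_prime (FN (M₁ * c)) (FN (M₁ * c * q))
    (by rw [hdeg]; exact hq)
  let S' : IntermediateField (FN (M₁ * c)) (FN (M₁ * c * q)) :=
    { S with algebraMap_mem' := h1 }
  rcases eq_bot_or_eq_top S' with hS | hS
  · exfalso
    have h3 : betaUp M₁ c q (jF (M₁ * q)) ∈ S' := h2 _
    rw [hS, IntermediateField.mem_bot] at h3
    obtain ⟨z, hz⟩ := h3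
    have h4 : qExpand Kb q (z : LaurentSeries Kb) = qExpand Kb c (jqModC Kb) := by
      have := congrArg Subtype.val hz
      rw [coe_betaUp] at this
      rw [← coe_heckeBetaBar, ← jqNModC_one, ← coe_jBar (M₁ * q) 1 (one_dvd _)]
      exact this
    have h5 := congrArg (fun s => HahnSeries.coeff s ((c : ℤ) * (-1))) h4
    rw [qExpand_coeff_mul, coeff_jqModC_neg_one, qExpand_coeff_of_not_dvd] at h5
    · exact zero_ne_one h5
    · intro h
      apply hqc
      rw [mul_neg, mul_one, dvd_neg] at h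
      exact_mod_cast h
  · apply top_le_iff.1
    intro x _
    have : x ∈ S' := by rw [hS]; trivial
    exact this

/-- **[NORM-C-β]** -/
theorem normAlong_beta_betaUp (hq : q.Prime) (hqM : q ∣ M₁) (hqc : ¬ q ∣ c) (f : FN (M₁ * q)) :
    normAlong (heckeBetaBar Kb (M₁ * c) q) (betaUp M₁ c q f) =
      heckeBetaBar Kb M₁ c (normAlong (heckeBetaBar Kb M₁ q) f) := by
  refine normAlong_baseChange (heckeBetaBar Kb M₁ q) (heckeBetaBar Kb M₁ c)
    (heckeBetaBar Kb (M₁ * c) q) (betaUp M₁ c q) (square_comm_beta M₁ c q) (finiteAlong_any _)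
    (finiteAlong_any _) (square_gen_beta M₁ c q hq hqM hqc) ?_ f
  rw [finrankAlong_beta_eq_alpha' _ _ hq, finrankAlong_beta_eq_alpha' _ _ hq,
    finrankAlong_alpha_of_dvd M₁ q hq hqM, finrankAlong_alpha_of_dvd (M₁ * c) q hq
    (hqM.mul_right c)]

theorem smul_betaUp (σ : GQ) (f : FN (M₁ * q)) :
    arithmeticGalois (modularFunctionFieldFull (M₁ * c * q)) σ • betaUp M₁ c q f =
      betaUp M₁ c q (arithmeticGalois (modularFunctionFieldFull (M₁ * q)) σ • f) := by
  apply Subtype.ext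
  rw [coe_arithmeticGalois_smul, coe_betaUp, coe_betaUp, coe_arithmeticGalois_smul,
    ModularCurve.coeffMap_qExpand]

/-- **[DESC36]** -/
theorem kumBar_of_mul (H : Subgroup GQ) (m E : ℕ) (hm : m ≠ 0) (hq : q.Prime) (hqM : q ∣ M₁)
    (hqc : ¬ q ∣ c) (hlt : Nat.card (XN (M₁ * q * c)) < 2 * c * Nat.card (XN (M₁ * q)))
    (h : KumBar H (M₁ * c) q m E) : KumBar H M₁ q m E := by
  intro f hf0 hord hgal hNa hNb
  obtain ⟨x, hx⟩ := h (betaUp M₁ c q f) ((map_ne_zero _).2 hf0) (fun P => by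
      rw [Place.ord_restrictAlong (betaUp M₁ c q) (isIntegral_any _) P f]
      exact (hord _).mul_left _)
    (fun σ hσ => by
      obtain ⟨u, hu⟩ := hgal σ hσ
      exact ⟨betaUp M₁ c q u, by rw [smul_betaUp, hu, map_mul, map_pow]⟩)
    (by
      obtain ⟨g, hg⟩ := hNa
      exact ⟨heckeBetaBar Kb M₁ c g, by rw [normAlong_alpha_betaUp M₁ c q hq hqM, hg, map_pow]⟩)
    (by
      obtain ⟨g, hg⟩ := hNb
      exact ⟨heckeBetaBar Kb M₁ c g, by
        rw [normAlong_beta_betaUp M₁ c q hq hqM hqc, hg, map_pow]⟩)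
  have hx' : (castLevel (Nat.mul_right_comm M₁ c q) x) ^ m =
      heckeBetaBar Kb (M₁ * q) c (f ^ E) := by
    apply Subtype.ext
    have h1 := congrArg Subtype.val hx
    rw [← map_pow, coe_castLevel, ← hx, ← map_pow, coe_betaUp, coe_heckeBetaBar]
  obtain ⟨g, hg, -⟩ := Desc.exists_root_of_beta_eq_pow (M₁ * q) c hlt hm (f ^ E)
    (dvd_order_of_dvd_ord (M₁ * q) (f ^ E) (pow_ne_zero _ hf0) (fun P => by
      rw [S24.Place.ord_pow]
      exact (hord P).mul_left _)) _ hx'
  exact ⟨g, hg.symm⟩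

end Fermat.Agent.S36.Kum
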