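import Fermat.Agent.S36.Kum.Final
import Fermat.Agent.S36.Mod.Inst

/-!
# S36 : the modular datum satisfies `HasDatum`
-/

set_option autoImplicit false

noncomputable section

namespace Fermat.Agent.S36.Kum

theorem hasDatum : HasDatum := fun C h49 =>
  ⟨C.geom h49, C.norm h49, rfl, fun _ => rfl, fun _ => rfl⟩

end Fermat.Agent.S36.Kum
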