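import Fermat.Agent.S36.Kum.Emb
import Fermat.Agent.S36.Desc

/-!
# S36 / [KUMMER36] : `[FIX]`, `[ROOT-DESC]`  descent of invariants and of `m`-th roots
-/

set_option autoImplicit false
set_option linter.style.haveILetI false
set_option linter.unusedSectionVars false
set_option synthInstance.maxHeartbeats 400000

noncomputable section

open AlgebraicCurve ModularCurve

namespace Fermat.Agent.S36.Kum

local notation "Kb" => AlgebraicClosure ℚ
local notation "GQ" => (AlgebraicClosure ℚ ≃ₐ[ℚ] AlgebraicClosure ℚ)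

variable (H : Subgroup GQ) (E : IntermediateField ℚ Kb)
  (hE : ∀ x : Kb, (∀ σ ∈ H, σ x = x) → x ∈ E)
  (F₀ : IntermediateField ℚ (LaurentSeries ℚ))

include hE in
/-- **[FIX]** an `H`-invariant function is defined over the fixed field (`mem_range_bcEmb`). -/
theorem mem_range_bcEmb_of_fixed (x : laurentBaseChange Kb F₀)
    (hx : ∀ σ ∈ H, arithmeticGalois F₀ σ • x = x) :
    x ∈ Set.range (bcEmb (algebraMap E Kb) F₀) := by
  refine mem_range_bcEmb (algebraMap E Kb) F₀ x fun n => ?_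
  have hmem : (x : LaurentSeries Kb).coeff n ∈ E := by
    refine hE _ fun σ hσ => ?_
    have h1 := congrArg (fun z : laurentBaseChange Kb F₀ => (z : LaurentSeries Kb).coeff n) (hx σ hσ)
    simp only [coe_arithmeticGalois_smul, coeffMap_coeff] at h1
    exact h1
  exact ⟨⟨_, hmem⟩, rfl⟩

/-- the subgroup fixing `E` has fixed field `E` (infinite Galois theory) -/
theorem mem_of_fixingSubgroup (x : Kb) (hx : ∀ σ ∈ E.fixingSubgroup, σ x = x) : x ∈ E := by
  have g1 : Algebra.IsAlgebraic ℚ Kb := AlgebraicClosure.isAlgebraic ℚ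
  have g2 : IsAlgClosure ℚ Kb := ⟨inferInstance, inferInstance⟩
  have g3 : Normal ℚ Kb := IsAlgClosure.normal ℚ Kb
  have g4 : IsGalois ℚ Kb := {}
  have h1 : x ∈ IntermediateField.fixedField E.fixingSubgroup :=
    (IntermediateField.mem_fixedField_iff _ x).2 hx
  rwa [InfiniteGalois.fixedField_fixingSubgroup] at h1

include hE in
/-- **[ROOT-DESC]**
Proof.  `n₀ = 0`: `c = 0`.  Otherwise `h ≠ 0`; `h₁ := h / lc(h)` has leading coefficient `1`;
`c := lc(n₀) ∈ E` satisfies `ι c = lc(h)^m`, `bcEmb (n₀ / c) = h₁ ^ m`.  For `σ` fixing `E`: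
`(σ h₁ / h₁)^m = 1` and `σ h₁ / h₁` is a one-unit (`order_coeffMap`, `leadingCoeff_coeffMap`), so
`σ h₁ = h₁` (`IsOneUnit.eq_one_of_pow`); `[FIX]` for the subgroup fixing `E`. -/
theorem exists_root_desc {m : ℕ} (hm : m ≠ 0) (n₀ : laurentBaseChange E F₀)
    (h : laurentBaseChange Kb F₀) (hh : bcEmb (algebraMap E Kb) F₀ n₀ = h ^ m) :
    ∃ (c : E) (h₀ : laurentBaseChange E F₀), n₀ = algebraMap E _ c * h₀ ^ m := by
  classical
  by_cases hn : n₀ = 0
  · exact ⟨0, 0, by simp [hn]⟩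
  have hinj : Function.Injective (bcEmb (algebraMap E Kb) F₀) := (bcEmb (algebraMap E Kb) F₀).injective
  have hh0 : h ≠ 0 := by
    rintro rfl
    rw [zero_pow hm] at hh
    exact hn (hinj (hh.trans (map_zero _).symm))
  have hh0' : (h : LaurentSeries Kb) ≠ 0 := fun h0 => hh0 (Subtype.ext h0)
  have hn' : (n₀ : LaurentSeries E) ≠ 0 := fun h0 => hn (Subtype.ext h0)
  obtain ⟨ℓ, hℓdef⟩ : ∃ ℓ : Kb, ℓ = (h : LaurentSeries Kb).leadingCoeff := ⟨_, rfl⟩
  obtain ⟨c, hcdef⟩ : ∃ c : E, c = (n₀ : LaurentSeries E).leadingCoeff := ⟨_, rfl⟩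
  have hℓ : ℓ ≠ 0 := by
    rw [hℓdef]
    exact HahnSeries.leadingCoeff_ne_zero.2 hh0'
  have hc0 : c ≠ 0 := by
    rw [hcdef]
    exact HahnSeries.leadingCoeff_ne_zero.2 hn'
  have hc : algebraMap E Kb c = ℓ ^ m := by
    have h1 := congrArg (fun z : laurentBaseChange Kb F₀ => (z : LaurentSeries Kb).leadingCoeff) hh
    simp only [coe_bcEmb, leadingCoeff_coeffMap] at h1
    rw [hcdef, h1, hℓdef, ← leadingCoeff_pow']
    rfl
  obtain ⟨h₁, hh₁⟩ : ∃ h₁ : laurentBaseChange Kb F₀, h₁ = algebraMap Kb _ ℓ⁻¹ * h := ⟨_, rfl⟩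
  have h₁0 : (h₁ : LaurentSeries Kb) ≠ 0 := by
    intro h0
    have : h₁ = 0 := Subtype.ext h0
    rw [hh₁] at this
    rcases mul_eq_zero.1 this with h2 | h2
    · exact inv_ne_zero hℓ ((map_eq_zero _).1 h2)
    · exact hh0 h2
  have h₁pow : bcEmb (algebraMap E Kb) F₀ (algebraMap E _ c⁻¹ * n₀) = h₁ ^ m := by
    rw [map_mul, bcEmb_algebraMap, hh, hh₁, mul_pow, ← map_pow, map_inv₀, hc, inv_pow]
  have hlc : (h₁ : LaurentSeries Kb).leadingCoeff = 1 := by
    rw [hh₁]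
    show ((algebraMap Kb (laurentBaseChange Kb F₀) ℓ⁻¹ : laurentBaseChange Kb F₀) *
      (h : LaurentSeries Kb)).leadingCoeff = 1
    rw [HahnSeries.leadingCoeff_mul, leadingCoeff_algebraMap', ← hℓdef, inv_mul_cancel₀ hℓ]
  have hfix : ∀ σ ∈ E.fixingSubgroup, arithmeticGalois F₀ σ • h₁ = h₁ := by
    intro σ hσ
    have h1 : arithmeticGalois F₀ σ • (h₁ ^ m) = h₁ ^ m := by
      rw [← h₁pow]
      apply Subtype.ext
      rw [coe_arithmeticGalois_smul, coe_bcEmb, coeffMap_coeffMap]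
      exact coeffMap_congr (RingHom.ext fun x : E =>
        (IntermediateField.mem_fixingSubgroup_iff E σ).1 hσ (x : Kb) x.2) _
    rw [smul_pow''] at h1
    have h2 : (coeffMap (σ : Kb →+* Kb) (h₁ : LaurentSeries Kb)) ^ m = (h₁ : LaurentSeries Kb) ^ m := by
      have := congrArg (fun z : laurentBaseChange Kb F₀ => (z : LaurentSeries Kb)) h1
      exact this
    have h3 : IsOneUnit (coeffMap (σ : Kb →+* Kb) (h₁ : LaurentSeries Kb) *
        (h₁ : LaurentSeries Kb)⁻¹) := by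
      have hσ0 : coeffMap (σ : Kb →+* Kb) (h₁ : LaurentSeries Kb) ≠ 0 :=
        (map_ne_zero (coeffMap (σ : Kb →+* Kb))).2 h₁0
      have e1 : (h₁ : LaurentSeries Kb) * (h₁ : LaurentSeries Kb)⁻¹ = 1 := mul_inv_cancel₀ h₁0
      have e2 := congrArg HahnSeries.order e1
      have e3 := congrArg HahnSeries.leadingCoeff e1
      rw [HahnSeries.order_mul h₁0 (inv_ne_zero h₁0), HahnSeries.order_one] at e2
      rw [HahnSeries.leadingCoeff_mul, hlc, one_mul, HahnSeries.leadingCoeff_one] at e3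
      constructor
      · rw [HahnSeries.order_mul hσ0 (inv_ne_zero h₁0), order_coeffMap, e2]
      · rw [HahnSeries.leadingCoeff_mul, leadingCoeff_coeffMap, hlc, e3, map_one, one_mul]
    have h4 := h3.eq_one_of_pow hm (by
      rw [mul_pow, h2, inv_pow, mul_inv_cancel₀ (pow_ne_zero m h₁0)])
    apply Subtype.ext
    rw [coe_arithmeticGalois_smul]
    exact (mul_inv_eq_one₀ h₁0).1 h4
  obtain ⟨h₀, hh₀⟩ := mem_range_bcEmb_of_fixed E.fixingSubgroup E (mem_of_fixingSubgroup E) F₀ h₁ hfix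
  refine ⟨c, h₀, hinj ?_⟩
  rw [map_mul, map_pow, hh₀, bcEmb_algebraMap, ← h₁pow, map_mul, bcEmb_algebraMap, ← mul_assoc,
    ← map_mul, map_inv₀, mul_inv_cancel₀ ((map_ne_zero _).2 hc0), map_one, one_mul]

end Fermat.Agent.S36.Kum
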