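import Fermat.Agent.S36.Kum.Hor
import Fermat.Agent.S36.Kum.Root
import Fermat.Agent.S36.Kum.Level
import Fermat.Agent.S36.K0
import Fermat.Agent.GAL.PC.CycloPow
import Fermat.Agent.RED.GalEq.Residue

/-!
# S36 / [KUMMER36] + [DESC36] : from the Kummer form over `K₀ = ℚbar ^ I_A` to `Geo36`
-/

set_option autoImplicit false
set_option linter.style.haveILetI false
set_option linter.unusedSectionVars false

noncomputable section

open AlgebraicCurve ModularCurve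

namespace Fermat.Agent.S36.Kum

open Fermat.Agent.RED hiding Kb
open Fermat.Agent.S24 Fermat.Agent.RED.TorsES

/-- the Kummer form over a subfield `E` of `ℚbar` (`= abs36` on the modular datum, for `E = K0 A`). -/
def Kum36 (E : IntermediateField ℚ Kb) (N₁ q m Ex : ℕ) [NeZero N₁] [NeZero q] : Prop :=
  ∀ g : laurentBaseChange E (modularFunctionFieldFull (N₁ * q)), g ≠ 0 → Hor E m g →
    (∃ (c : E) (h : laurentBaseChange E (modularFunctionFieldFull N₁)),
      normAlong (heckeAlphaBar E N₁ q) g = algebraMap E _ c * h ^ m) →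
    (∃ (c : E) (h : laurentBaseChange E (modularFunctionFieldFull N₁)),
      normAlong (heckeBetaBar E N₁ q) g = algebraMap E _ c * h ^ m) →
    ∃ (c : E) (x : laurentBaseChange E (modularFunctionFieldFull (N₁ * q))),
      c ≠ 0 ∧ x ≠ 0 ∧ g ^ Ex = algebraMap E _ c * x ^ m

theorem normAlong_mul' {K F F' : Type*} [Field K] [Field F] [Field F'] [Algebra K F] [Algebra K F']
    (ψ : F →ₐ[K] F') (z w : F') : normAlong ψ (z * w) = normAlong ψ z * normAlong ψ w := by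
  letI := algebraAlong ψ
  exact map_mul (Algebra.norm F) z w

theorem normAlong_pow' {K F F' : Type*} [Field K] [Field F] [Field F'] [Algebra K F] [Algebra K F']
    (ψ : F →ₐ[K] F') (z : F') (n : ℕ) : normAlong ψ (z ^ n) = normAlong ψ z ^ n := by
  letI := algebraAlong ψ
  exact map_pow (Algebra.norm F) z n

theorem isAlgebraic_range (E : IntermediateField ℚ Kb) (c : Kb) :
    IsAlgebraic ((algebraMap E Kb).range) c := by
  have h1 : IsAlgebraic ℚ c := Algebra.IsAlgebraic.isAlgebraic c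
  have h2 : IsAlgebraic ℤ c := (IsFractionRing.isAlgebraic_iff ℤ ℚ Kb).mpr h1
  exact h2.extendScalars (fun a b hab => by
    have := congrArg (Subtype.val) hab
    simpa using this)

/-- **[KUM-DESC]** -/
theorem kumBar_of_kum36 (H : Subgroup GQ) (E : IntermediateField ℚ Kb)
    (hE : ∀ x : Kb, (∀ σ ∈ H, σ x = x) → x ∈ E) (N₁ q m Ex : ℕ) [NeZero N₁] [NeZero q] (hm : m ≠ 0)
    (h : Kum36 E N₁ q m Ex) : KumBar H N₁ q m Ex := by
  rintro f hf hord hinv ⟨hα, hhα⟩ ⟨hβ, hhβ⟩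
  obtain ⟨b, hb0, hb⟩ := exists_invariant_mul_pow (modularFunctionFieldFull (N₁ * q)) hm H f hf hinv
  obtain ⟨g, hg⟩ := mem_range_bcEmb_of_fixed H E hE _ (f * b ^ m) hb
  have hfb : f * b ^ m ≠ 0 := mul_ne_zero hf (pow_ne_zero m hb0)
  have hg0 : g ≠ 0 := by
    rintro rfl
    rw [map_zero] at hg
    exact hfb hg.symm
  have hHor : Hor E m g := hor_of_forall_place E (N₁ * q) m g hg0 (fun P => by
    rw [hg, P.ord_mul hf (pow_ne_zero _ hb0), S24.Place.ord_pow]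
    exact dvd_add (hord P) (dvd_mul_right _ _))
  obtain ⟨-, -, hNα⟩ := bc_alpha (algebraMap E Kb) N₁ q (isAlgebraic_range E)
    (GAL.HeckeInputs.finiteAlong_alpha N₁ q)
  obtain ⟨-, -, hNβ⟩ := bc_beta (algebraMap E Kb) N₁ q (isAlgebraic_range E)
    (GAL.HeckeInputs.finiteAlong_beta N₁ q)
  have h1 := exists_root_desc H E hE _ hm (normAlong (heckeAlphaBar E N₁ q) g)
    (hα * normAlong (heckeAlphaBar Kb N₁ q) b) (by
      rw [hNα, hg, normAlong_mul', normAlong_pow', hhα, mul_pow])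
  have h2 := exists_root_desc H E hE _ hm (normAlong (heckeBetaBar E N₁ q) g)
    (hβ * normAlong (heckeBetaBar Kb N₁ q) b) (by
      rw [hNβ, hg, normAlong_mul', normAlong_pow', hhβ, mul_pow])
  obtain ⟨c, x, -, -, hx⟩ := h g hg0 hHor h1 h2
  obtain ⟨d, hd⟩ := IsAlgClosed.exists_pow_nat_eq (algebraMap E Kb c) (Nat.pos_of_ne_zero hm)
  refine ⟨algebraMap Kb _ d * bcEmb (algebraMap E Kb) _ x * (b ^ Ex)⁻¹, ?_⟩
  have h3 := congrArg (bcEmb (algebraMap E Kb) _) hx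
  rw [map_pow, hg, map_mul, map_pow, bcEmb_algebraMap, ← hd, map_pow, mul_pow] at h3
  have hbE : (b ^ Ex) ^ m ≠ 0 := pow_ne_zero _ (pow_ne_zero _ hb0)
  rw [mul_pow, mul_pow, inv_pow, ← h3, ← pow_mul, ← pow_mul, mul_comm Ex m, mul_assoc,
    mul_inv_cancel₀ (by rw [pow_mul]; exact pow_ne_zero _ (pow_ne_zero _ hb0)), mul_one]

theorem kumBar_congr (H : Subgroup GQ) {N N' : ℕ} (h : N = N') (q m Ex : ℕ) [NeZero N] [NeZero N']
    [NeZero q] (hK : KumBar H N q m Ex) : KumBar H N' q m Ex := by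
  subst h
  exact hK

theorem not_dvd_aux {q : ℕ} (hq : q.Prime) : ¬ q ∣ aux q := by
  intro h
  have := not_dvd_mul_aux (N := 1) hq (by
    intro h1
    exact hq.one_lt.ne' (Nat.dvd_one.mp h1))
  rw [one_mul] at this
  exact this h

theorem card_lt_aux (N q : ℕ) [NeZero N] :
    Nat.card (XN (N * aux q)) < 2 * aux q * Nat.card (XN N) := by
  rcases aux_eq q with h | h
  · exact card_lt_of_eq_sq N (aux q) Nat.prime_two (h.trans (by norm_num))
  · exact card_lt_of_eq_sq N (aux q) Nat.prime_three (h.trans (by norm_num))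

/-- **[GEO36]** the geometric interface of TOP36 (helper65, board #1140 (3)), from the Kummer form at
the rigid levels. -/
theorem geo36_of_kum36 (M₁ q p Ex : ℕ) [NeZero M₁] [NeZero q] (hq : q.Prime) (hp : p.Prime)
    (hpq : p ≠ q) (hqM : q ∣ M₁) (hq2 : ¬ q ^ 2 ∣ M₁)
    (A : ValuationSubring Kb) (hA : A.LiesOverPrime q)
    (hK : ∀ (M' : ℕ) [NeZero M'], ¬ q ∣ M' → aux q ∣ M' → ∀ m : ℕ, m.Coprime q →
      Kum36 (K0 A) (M' * q) q m Ex)
    (y : JZero (M₁ * q)) (hy : ∃ k : ℕ, p ^ k • y = 0)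
    (hI : ∀ τ ∈ A.inertiaSubgroupIn ℚ, τ • y = y)
    (hA' : Top.pushA M₁ q y = 0) (hB' : Top.pushB M₁ q y = 0) : Ex • y = 0 := by
  obtain ⟨k, hk⟩ := hy
  obtain ⟨M₀, hM₀⟩ := hqM
  have hM₀0 : M₀ ≠ 0 := by
    rintro rfl
    exact NeZero.ne M₁ (by rw [hM₀, mul_zero])
  have hqM₀ : ¬ q ∣ M₀ := by
    rintro ⟨c, rfl⟩
    exact hq2 ⟨c, by rw [hM₀]; ring⟩
  haveI : NeZero (M₀ * aux q) := ⟨mul_ne_zero hM₀0 (NeZero.ne _)⟩
  have hm : p ^ k ≠ 0 := pow_ne_zero k hp.ne_zero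
  have hcop : (p ^ k).Coprime q := Nat.Coprime.pow_left k ((Nat.coprime_primes hp hq).mpr hpq)
  have h1 : KumBar (A.inertiaSubgroupIn ℚ) (M₀ * aux q * q) q (p ^ k) Ex :=
    kumBar_of_kum36 _ (K0 A) (fun x hx => mem_K0.mpr hx) _ q _ Ex hm
      (hK (M₀ * aux q) (not_dvd_mul_aux hq hqM₀) (dvd_mul_left _ _) _ hcop)
  have h2 : KumBar (A.inertiaSubgroupIn ℚ) (M₁ * aux q) q (p ^ k) Ex :=
    kumBar_congr _ (by rw [hM₀]; ring) q _ Ex h1
  have h3 : KumBar (A.inertiaSubgroupIn ℚ) M₁ q (p ^ k) Ex :=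
    kumBar_of_mul M₁ (aux q) q _ _ Ex hm hq ⟨M₀, hM₀⟩ (not_dvd_aux hq) (card_lt_aux _ q) h2
  exact nsmul_eq_zero_of_kumBar _ M₁ q _ Ex hm h3 y hk hI hA' hB'

section R0

variable {A : ValuationSubring Kb} {q : ℕ}

theorem isUnit_natCast_R0 (hq : q.Prime) (hA : A.LiesOverPrime q) {m : ℕ} (hm : m.Coprime q) :
    IsUnit ((m : ℕ) : R0 A) := by
  rw [isUnit_R0_iff]
  have h0 : A.valuation (q : Kb) < 1 := A.mem_nonunits_iff.mp hA
  obtain ⟨a, b, hab⟩ := Nat.isCoprime_iff_coprime.mpr hm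
  have h1 : (a : Kb) * m + b * q = 1 := by exact_mod_cast congrArg (Int.cast : ℤ → Kb) hab
  have hint : ∀ z : ℤ, A.valuation (z : Kb) ≤ 1 := fun z =>
    (A.valuation_le_one_iff _).mpr (intCast_mem A z)
  have hm1 : A.valuation (m : Kb) ≤ 1 := by
    have := hint (m : ℤ)
    rwa [Int.cast_natCast] at this
  show A.valuation ((((m : ℕ) : R0 A) : K0 A) : Kb) = 1
  have e : ((((m : ℕ) : R0 A) : K0 A) : Kb) = (m : Kb) := by simp
  rw [e]
  refine le_antisymm hm1 ?_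
  by_contra hlt
  rw [not_le] at hlt
  have h2 : A.valuation ((a : Kb) * m + b * q) < 1 := by
    refine lt_of_le_of_lt (A.valuation.map_add _ _) (max_lt ?_ ?_)
    · rw [map_mul]
      calc _ ≤ 1 * A.valuation (m : Kb) := mul_le_mul_left (hint a) _
        _ < 1 := by rw [one_mul]; exact hlt
    · rw [map_mul]
      calc _ ≤ 1 * A.valuation (q : Kb) := mul_le_mul_left (hint b) _
        _ < 1 := by rw [one_mul]; exact h0
  rw [h1, map_one] at h2
  exact lt_irrefl _ h2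

theorem exists_primitiveRoot_R0 (hq : q.Prime) (hA : A.LiesOverPrime q) {m : ℕ} (hm : m.Coprime q) :
    ∃ ζ : R0 A, IsPrimitiveRoot ζ m := by
  have hm0 : m ≠ 0 := by
    rintro rfl
    rw [Nat.coprime_zero_left] at hm
    exact hq.one_lt.ne' hm
  haveI : NeZero m := ⟨hm0⟩
  obtain ⟨ζ, hζ⟩ := HasEnoughRootsOfUnity.exists_primitiveRoot Kb m
  have hfix : ∀ σ ∈ A.inertiaSubgroupIn ℚ, σ ζ = ζ := by
    intro σ hσ
    have h1 := GAL.cycloChar_spec m σ hζ.pow_eq_one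
    rw [GAL.PC.cycloChar_of_mem_inertia' m hq hm.symm hA hσ, Units.val_one,
      ZMod.val_one_eq_one_mod, ← pow_eq_pow_mod 1 hζ.pow_eq_one, pow_one] at h1
    exact h1
  have hv : A.valuation ζ ≤ 1 := by
    by_contra hlt
    rw [not_le] at hlt
    have := one_lt_pow₀ hlt hm0
    rw [← map_pow, hζ.pow_eq_one, map_one] at this
    exact lt_irrefl _ this
  let z : R0 A := ⟨⟨ζ, mem_K0.mpr hfix⟩, mem_R0.mpr hv⟩
  refine ⟨z, ?_⟩
  have hinj : Function.Injective (fun y : R0 A => ((y : K0 A) : Kb)) := fun a b hab =>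
    Subtype.ext (Subtype.ext hab)
  let φ : R0 A →+* Kb := (algebraMap (K0 A) Kb).comp (R0 A).subtype
  have hφ : Function.Injective φ := fun a b hab => Subtype.ext (Subtype.ext hab)
  exact IsPrimitiveRoot.of_map_of_injective (f := φ) (by exact hζ) hφ

theorem exists_pow_sub_mem_R0 (hq : q.Prime) (hA : A.LiesOverPrime q) {m : ℕ} (hm : m ≠ 0)
    (r : R0 A) : ∃ s : R0 A, r - s ^ m ∈ Ideal.span {((q : ℕ) : R0 A)} := by
  haveI : IsAlgClosed (IsLocalRing.ResidueField A) := RED.GalEq.isAlgClosed_residueField A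
  obtain ⟨t, ht⟩ := IsAlgClosed.exists_pow_nat_eq (IsLocalRing.residue A (inclR0 A r))
    (Nat.pos_of_ne_zero hm)
  obtain ⟨s, hs⟩ := residue_inclR0_surjective hq hA t
  refine ⟨s, ?_⟩
  rw [Ideal.mem_span_singleton, ← residue_inclR0_eq_zero_iff hq hA, map_sub, map_sub, map_pow,
    map_pow, ← ht, ← hs, RingHom.comp_apply, sub_self]

end R0

end Fermat.Agent.S36.Kum
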