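import Fermat.Agent.S36.Top.Push
import Fermat.Agent.RED.S37.PicDesc

/-!
# S36 / [KUMMER36] : the Kummer form over `ℚbar` and its relation with `J₀`

`KumBar H N₁ q m E` : every `f ∈ F_{N₁ q}` whose divisor is divisible by `m`, whose class modulo
`m`-th powers is `H`-invariant and whose two norms to `F_{N₁}` are `m`-th powers satisfies
`f ^ E ∈ (F ^ ×) ^ m`.
-/

set_option autoImplicit false
set_option linter.style.haveILetI false
set_option linter.unusedSectionVars false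

noncomputable section

open AlgebraicCurve ModularCurve

namespace Fermat.Agent.S36.Kum

open Fermat.Agent.RED hiding Kb
open Fermat.Agent.S24 Fermat.Agent.RED.TorsES

/-- the Kummer form of `Geo36` over `ℚbar`, at the level `N₁ q`. -/
def KumBar (H : Subgroup GQ) (N₁ q m E : ℕ) [NeZero N₁] [NeZero q] : Prop :=
  ∀ f : FN (N₁ * q), f ≠ 0 → (∀ P : Place Kb (FN (N₁ * q)), (m : ℤ) ∣ P.ord f) →
    (∀ σ ∈ H, ∃ u : FN (N₁ * q),
      arithmeticGalois (modularFunctionFieldFull (N₁ * q)) σ • f = f * u ^ m) →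
    (∃ h, normAlong (heckeAlphaBar Kb N₁ q) f = h ^ m) →
    (∃ h, normAlong (heckeBetaBar Kb N₁ q) f = h ^ m) →
    ∃ x : FN (N₁ * q), f ^ E = x ^ m

/-- two functions with the same divisor differ by a constant, which is an `m`-th power. -/
theorem exists_eq_mul_pow_of_ord_eq (N : ℕ) [NeZero N] {m : ℕ} (hm : m ≠ 0) {a b : FN N}
    (ha : a ≠ 0) (hb : b ≠ 0) (h : ∀ P : Place Kb (FN N), P.ord a = P.ord b) :
    ∃ c : Kb, a = b * (algebraMap Kb (FN N) c) ^ m := by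
  have hsep : IsSepParam Kb (S24.jF N) :=
    IsSepParam.of_charZero (GAL.HeckeInputs.isFiniteParam_jF N)
  have hord : ∀ w : Place Kb (FN N), w.ord (a * b⁻¹) = 0 := by
    intro w
    rw [w.ord_mul ha (inv_ne_zero hb), w.ord_inv, h w]
    ring
  obtain ⟨a0, ha0⟩ := hsep.mem_range_of_forall_ord_nonneg (fun w => (hord w).ge)
  obtain ⟨c, hc⟩ := IsAlgClosed.exists_pow_nat_eq a0 (Nat.pos_of_ne_zero hm)
  refine ⟨c, ?_⟩
  rw [← map_pow, hc, ha0, mul_comm a, ← mul_assoc, mul_inv_cancel₀ hb, one_mul]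

variable (H : Subgroup GQ) (M₁ q m E : ℕ) [NeZero M₁] [NeZero q]

/-- **[KUM-PIC]**
Proof.  `y = [D]`, `IsDiv m D f` (`exists_isDiv_of_nsmul_eq_zero`).
* `m ∣ ord_P f` : `hf.2 P`.
* `τ • y = y` : `τ • D - D = div u` (`mk_eq_zero_iff`), `IsDiv m (τ • D) (τ • f)` (`IsDiv.smul`), so
  `τ • f / (f u ^ m)` has trivial divisor, hence is a constant (`IsSepParam.mem_range_of_forall_ord_nonneg`
  as in `RED/S37/PicDesc`), an `m`-th power (`IsAlgClosed.exists_pow_nat_eq`).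
* `pushA y = 0` : `push D = div g`; `IsDiv m (push D) (normAlong α f)` (`IsDiv.pushforwardAlong`), so
  `normAlong α f / g ^ m` is a constant.
* conclusion: `f ^ E = x ^ m` gives `m (E D - div x) = 0`; `mk_eq_zero_of_isDiv`. -/
theorem nsmul_eq_zero_of_kumBar (hm : m ≠ 0) (hK : KumBar H M₁ q m E)
    (y : JZero (M₁ * q)) (hy : m • y = 0) (hH : ∀ τ ∈ H, τ • y = y)
    (hA : Top.pushA M₁ q y = 0) (hB : Top.pushB M₁ q y = 0) : E • y = 0 := by
  obtain ⟨D, rfl⟩ := Pic0.mk_surjective y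
  obtain ⟨f, hf⟩ := TorsES.exists_isDiv_of_nsmul_eq_zero hy
  have hm' : (m : ℤ) ≠ 0 := by exact_mod_cast hm
  haveI : HasPrincipalDivisors Kb (FN (M₁ * q)) :=
    (GAL.HeckeInputs.isFiniteParam_jF (M₁ * q)).hasPrincipalDivisors
  have h1 : ∀ P : Place Kb (FN (M₁ * q)), (m : ℤ) ∣ P.ord f := fun P => ⟨_, (hf.2 P).symm⟩
  have h2 : ∀ σ ∈ H, ∃ u : FN (M₁ * q),
      arithmeticGalois (modularFunctionFieldFull (M₁ * q)) σ • f = f * u ^ m := by
    intro σ hσ
    have e := hH σ hσ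
    rw [galois_smul_pic0_def, SemilinearAut.pic0_smul_mk, ← sub_eq_zero, ← TorsES.mk_sub',
      TorsES.mk_eq_zero_iff] at e
    obtain ⟨u, hu0, hu⟩ := e
    have hσf := hf.smul (arithmeticGalois (modularFunctionFieldFull (M₁ * q)) σ)
    obtain ⟨c, hc⟩ := exists_eq_mul_pow_of_ord_eq (M₁ * q) hm hσf.1
      (mul_ne_zero hf.1 (pow_ne_zero m hu0)) (fun P => by
        rw [P.ord_mul hf.1 (pow_ne_zero m hu0), S24.Place.ord_pow, ← hσf.2 P, ← hf.2 P, ← hu P]
        simp only [AddSubgroupClass.coe_sub, SemilinearAut.coe_degZeroSMulHom, Finsupp.sub_apply]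
        ring)
    exact ⟨u * algebraMap Kb _ c, by rw [hc, mul_pow, mul_assoc]⟩
  have h3 : ∃ h, normAlong (heckeAlphaBar Kb M₁ q) f = h ^ m := by
    have e := hA
    rw [Top.pushA_mk, TorsES.mk_eq_zero_iff] at e
    obtain ⟨g, hg0, hg⟩ := e
    have hN := hf.pushforwardAlong (heckeAlphaBar Kb M₁ q) (GAL.HeckeInputs.heckeAlphaBarIntegral M₁ q)
      (GAL.HeckeInputs.finiteAlong_alpha M₁ q) (GAL.HeckeInputs.normFormulaAlong_alpha M₁ q)
    obtain ⟨c, hc⟩ := exists_eq_mul_pow_of_ord_eq M₁ hm hN.1 (pow_ne_zero m hg0) (fun P => by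
        rw [S24.Place.ord_pow, ← hN.2 P, ← hg P]
        rfl)
    exact ⟨g * algebraMap Kb _ c, by rw [hc, mul_pow]⟩
  have h4 : ∃ h, normAlong (heckeBetaBar Kb M₁ q) f = h ^ m := by
    have e := hB
    rw [Top.pushB_mk, TorsES.mk_eq_zero_iff] at e
    obtain ⟨g, hg0, hg⟩ := e
    have hN := hf.pushforwardAlong (heckeBetaBar Kb M₁ q) (GAL.HeckeInputs.heckeBetaBarIntegral M₁ q)
      (GAL.HeckeInputs.finiteAlong_beta M₁ q) (GAL.HeckeInputs.normFormulaAlong_beta M₁ q)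
    obtain ⟨c, hc⟩ := exists_eq_mul_pow_of_ord_eq M₁ hm hN.1 (pow_ne_zero m hg0) (fun P => by
        rw [S24.Place.ord_pow, ← hN.2 P, ← hg P]
        rfl)
    exact ⟨g * algebraMap Kb _ c, by rw [hc, mul_pow]⟩
  obtain ⟨x, hx⟩ := hK f hf.1 h1 h2 h3 h4
  have hx0 : x ≠ 0 := by
    rintro rfl
    rw [zero_pow hm] at hx
    exact pow_ne_zero E hf.1 hx
  rw [← TorsES.mk_nsmul']
  refine TorsES.mk_eq_zero_of_isDiv hm' (g := f ^ E) ?_ ⟨x, hx0, fun P => ?_⟩
  · exact hf.pow E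
  · rw [hx, S24.Place.ord_pow]

end Fermat.Agent.S36.Kum
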