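import Fermat.Agent.GAL.DescentBaseChange
import Fermat.Agent.GAL.FFBaseChange
import Fermat.Agent.RED.TorsESAbs
import Fermat.Prelude.Def_ModularCurve_HeckeOperator

/-!
# S36 / [KUMMER36] : extension of the constant field `k → C` for the fields `laurentBaseChange _ F₀`

* `bcEmb ι F₀ : laurentBaseChange k F₀ →+* laurentBaseChange C F₀` (coefficientwise `ι`);
* `[BC-LD]` linear disjointness, `[BC-NORM]` norms along `α`, `β` commute with `bcEmb`,
  `[BC-DEG]` the degrees of `α`, `β` do not depend on the constant field.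
-/

set_option autoImplicit false
set_option linter.style.haveILetI false
set_option linter.unusedSectionVars false

noncomputable section

open AlgebraicCurve ModularCurve

namespace Fermat.Agent.S36.Kum

open Fermat.Agent.GAL.Descent Fermat.Agent.RED.TorsES

variable {k C : Type*} [Field k] [Field C] [Algebra ℚ k] [Algebra ℚ C]

/-- the extension of constants, coefficientwise -/
def bcEmb (ι : k →+* C) (F₀ : IntermediateField ℚ (LaurentSeries ℚ)) :
    laurentBaseChange k F₀ →+* laurentBaseChange C F₀ where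
  toFun x := ⟨coeffMap ι (x : LaurentSeries k), coeffMap_mem_laurentBaseChange' ι F₀ x.2⟩
  map_one' := Subtype.ext (map_one (coeffMap ι))
  map_mul' _ _ := Subtype.ext (map_mul (coeffMap ι) _ _)
  map_zero' := Subtype.ext (map_zero (coeffMap ι))
  map_add' _ _ := Subtype.ext (map_add (coeffMap ι) _ _)

@[simp] theorem coe_bcEmb (ι : k →+* C) (F₀ : IntermediateField ℚ (LaurentSeries ℚ))
    (x : laurentBaseChange k F₀) :
    ((bcEmb ι F₀ x : laurentBaseChange C F₀) : LaurentSeries C) =
      coeffMap ι (x : LaurentSeries k) := rfl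

theorem bcEmb_algebraMap (ι : k →+* C) (F₀ : IntermediateField ℚ (LaurentSeries ℚ)) (c : k) :
    bcEmb ι F₀ (algebraMap k _ c) = algebraMap C _ (ι c) :=
  Subtype.ext (coeffMap_algebraMap' ι c)

/-- an element all of whose coefficients come from `k` comes from `laurentBaseChange k F₀`. -/
theorem mem_range_bcEmb (ι : k →+* C) (F₀ : IntermediateField ℚ (LaurentSeries ℚ))
    (x : laurentBaseChange C F₀)
    (hx : ∀ n : ℤ, (x : LaurentSeries C).coeff n ∈ Set.range ι) : x ∈ Set.range (bcEmb ι F₀) := by
  choose c hc using hx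
  have hsupp : Function.support c ⊆ (x : LaurentSeries C).support := by
    intro n hn
    rw [HahnSeries.mem_support, ← hc n]
    exact (map_ne_zero ι).mpr hn
  let u : LaurentSeries k := ⟨c, (x : LaurentSeries C).isPWO_support.mono hsupp⟩
  have hu : coeffMap ι u = (x : LaurentSeries C) := by
    ext n
    rw [coeffMap_coeff]
    exact hc n
  exact ⟨⟨u, mem_laurentBaseChange_of_coeffMap_mem ι F₀ u (hu ▸ x.2)⟩, Subtype.ext hu⟩

theorem coeffMap_qExpand_bc {R S : Type*} [CommRing R] [CommRing S] (f : R →+* S) (n : ℕ)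
    [NeZero n] (x : LaurentSeries R) : coeffMap f (qExpand R n x) = qExpand S n (coeffMap f x) := by
  ext m
  by_cases hm : (n : ℤ) ∣ m
  · obtain ⟨m, rfl⟩ := hm
    rw [coeffMap_coeff, qExpand_coeff_mul, qExpand_coeff_mul, coeffMap_coeff]
  · rw [coeffMap_coeff, qExpand_coeff_of_not_dvd n _ hm, qExpand_coeff_of_not_dvd n _ hm,
      map_zero]

theorem mapFun_qExpand_bc [Algebra k C] (π : C →ₗ[k] k) (n : ℕ) [NeZero n] (w : LaurentSeries C) :
    mapFun π (qExpand C n w) = qExpand k n (mapFun π w) := by
  ext m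
  by_cases hm : (n : ℤ) ∣ m
  · obtain ⟨m, rfl⟩ := hm
    rw [mapFun_coeff, qExpand_coeff_mul, qExpand_coeff_mul, mapFun_coeff]
  · rw [mapFun_coeff, qExpand_coeff_of_not_dvd n _ hm, qExpand_coeff_of_not_dvd n _ hm,
      map_zero]

variable (ι : k →+* C) (N q : ℕ) [NeZero N] [NeZero q]

theorem bcEmb_alpha (x : laurentBaseChange k (modularFunctionFieldFull N)) :
    bcEmb ι _ (heckeAlphaBar k N q x) = heckeAlphaBar C N q (bcEmb ι _ x) := by
  apply Subtype.ext
  rw [coe_bcEmb, coe_heckeAlphaBar, coe_heckeAlphaBar, coe_bcEmb]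

theorem bcEmb_beta (x : laurentBaseChange k (modularFunctionFieldFull N)) :
    bcEmb ι _ (heckeBetaBar k N q x) = heckeBetaBar C N q (bcEmb ι _ x) := by
  apply Subtype.ext
  rw [coe_bcEmb, coe_heckeBetaBar, coe_heckeBetaBar, coe_bcEmb, coeffMap_qExpand_bc]

/-- a subfield of `laurentBaseChange C F₀` containing the constants and `F₀` is everything. -/
theorem subfield_eq_top_of_gen (F₀ : IntermediateField ℚ (LaurentSeries ℚ))
    (S : Subfield (laurentBaseChange C F₀)) (h2 : ∀ c : C, algebraMap C _ c ∈ S)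
    (h1 : ∀ (z : LaurentSeries ℚ) (hz : z ∈ F₀),
      (⟨coeffEmb C z, coeffEmb_mem_laurentBaseChange C hz⟩ : laurentBaseChange C F₀) ∈ S) :
    S = ⊤ := by
  rw [eq_top_iff]
  intro x _
  let S' : Subfield (LaurentSeries C) := S.map (laurentBaseChange C F₀).val.toRingHom
  have hx := x.2
  rw [mem_laurentBaseChange_iff] at hx
  have key : (x : LaurentSeries C) ∈ S' := by
    refine (Subfield.closure_le (t := S')).mpr ?_ hx
    rintro y (⟨a, rfl⟩ | ⟨z, hz, rfl⟩)
    · exact ⟨algebraMap C _ a, h2 a, rfl⟩
    · exact ⟨_, h1 z hz, rfl⟩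
  obtain ⟨y, hy, hyx⟩ := key
  have : y = x := Subtype.ext hyx
  rw [← this]; exact hy

/-- **[BC-GEN]** `laurentBaseChange C F₀` is generated, as a ring, by the image of
`laurentBaseChange k F₀` and the constants, if `C / k` is algebraic.  (The subring is integral over the
field `range (bcEmb)`, hence a field; it contains the generators.) -/
theorem adjoin_range_eq_top (hι : ∀ c : C, IsAlgebraic (ι.range) c)
    (F₀ : IntermediateField ℚ (LaurentSeries ℚ)) (S : Subring (laurentBaseChange C F₀))
    (h1 : ∀ x, bcEmb ι F₀ x ∈ S) (h2 : ∀ c : C, algebraMap C _ c ∈ S) : S = ⊤ := by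
  let E : Subfield (laurentBaseChange C F₀) := (bcEmb ι F₀).fieldRange
  let T : Set (laurentBaseChange C F₀) := Set.range (algebraMap C (laurentBaseChange C F₀))
  have halg : ∀ x ∈ T, IsAlgebraic E x := by
    rintro _ ⟨c, rfl⟩
    let f : ι.range →+* E :=
      ((algebraMap C (laurentBaseChange C F₀)).comp ι.range.subtype).codRestrict E (by
        rintro ⟨_, a, rfl⟩
        exact ⟨algebraMap k _ a, bcEmb_algebraMap ι F₀ a⟩)
    refine (hι c).ringHom_of_comp_eq f (algebraMap C (laurentBaseChange C F₀)) ?_ ?_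
    · intro a b hab
      have h3 : algebraMap C (laurentBaseChange C F₀) a = algebraMap C (laurentBaseChange C F₀) b :=
        congrArg Subtype.val hab
      exact Subtype.ext ((algebraMap C (laurentBaseChange C F₀)).injective h3)
    · ext a
      rfl
  have h3 := IntermediateField.adjoin_toSubalgebra_of_isAlgebraic halg
  have h4 : (IntermediateField.adjoin E T).toSubfield = ⊤ := by
    apply subfield_eq_top_of_gen
    · intro c
      exact IntermediateField.subset_adjoin E T ⟨c, rfl⟩
    · intro z hz
      have h5 : (⟨coeffEmb C z, coeffEmb_mem_laurentBaseChange C hz⟩ : laurentBaseChange C F₀) =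
          bcEmb ι F₀ ⟨coeffEmb k z, coeffEmb_mem_laurentBaseChange k hz⟩ :=
        Subtype.ext (coeffMap_coeffEmb' ι z).symm
      rw [h5]
      exact (IntermediateField.adjoin E T).algebraMap_mem
        (⟨_, ⟨_, rfl⟩⟩ : E)
  rw [eq_top_iff]
  intro x _
  have h6 : x ∈ (IntermediateField.adjoin E T).toSubalgebra := by
    have : x ∈ (IntermediateField.adjoin E T).toSubfield := by rw [h4]; trivial
    exact this
  rw [h3] at h6
  induction h6 using Algebra.adjoin_induction with
  | mem y hy =>
      obtain ⟨c, rfl⟩ := hy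
      exact h2 c
  | algebraMap e =>
      obtain ⟨_, y, rfl⟩ := e
      exact h1 y
  | add a b _ _ ha hb => exact add_mem (ha trivial) (hb trivial)
  | mul a b _ _ ha hb => exact mul_mem (ha trivial) (hb trivial)

theorem one_mem_closure_linGen (F₀ : IntermediateField ℚ (LaurentSeries ℚ)) :
    (1 : LaurentSeries C) ∈ AddSubmonoid.closure (linGen C F₀) :=
  AddSubmonoid.subset_closure ⟨1, 1, one_mem _, by simp⟩

/-- common denominators -/
theorem exists_common_denominator (F₀ : IntermediateField ℚ (LaurentSeries ℚ)) {J : Type*}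
    (s : Finset J) (z : J → LaurentSeries C) (hz : ∀ i, z i ∈ laurentBaseChange C F₀) :
    ∃ B ∈ AddSubmonoid.closure (linGen C F₀), B ≠ 0 ∧
      ∀ i ∈ s, z i * B ∈ AddSubmonoid.closure (linGen C F₀) := by
  classical
  induction s using Finset.induction_on with
  | empty => exact ⟨1, one_mem_closure_linGen F₀, one_ne_zero, by simp⟩
  | insert a s _ ih =>
    obtain ⟨B, hB, hB0, hBs⟩ := ih
    obtain ⟨A', hA', B', hB', hB'0, hAB⟩ := exists_span_div F₀ (hz a)
    refine ⟨B * B', mul_mem_closure_linGen F₀ hB hB', mul_ne_zero hB0 hB'0, fun i hi => ?_⟩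
    rcases Finset.mem_insert.mp hi with rfl | hi
    · have : z i * (B * B') = A' * B := by rw [← hAB]; ring
      rw [this]
      exact mul_mem_closure_linGen F₀ hA' hB
    · rw [← mul_assoc]
      exact mul_mem_closure_linGen F₀ (hBs i hi) hB'

/-- **[BC-LD]** (abstract form).  `Φk`, `ΦC` = `id` or `qExpand q`.
Proof.  Let `∑ ΦC(z_i) * coeffMap ι (y_i) = 0`, `z_i ∈ laurentBaseChange C F₀`.  By `exists_span_div`
multiply by a common denominator: wlog `z_i ∈ AddSubmonoid.closure (linGen C F₀)`.  For every
`k`-linear form `π : C → k`: `0 = mapFun π (..) = ∑ Φk (mapFun π z_i) * y_i` (`mapFun_mul`, `hΦ`) and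
`mapFun π z_i ∈ laurentBaseChange k F₀` (`mapFun_mem_of_mem_closure`), so `mapFun π z_i = 0` for all `π`,
so `z_i = 0` (`Module.forall_dual_apply_eq_zero_iff`). -/
theorem linearIndependent_coeffMap [Algebra k C]
    (F₀ : IntermediateField ℚ (LaurentSeries ℚ))
    (Φk : LaurentSeries k →+* LaurentSeries k) (ΦC : LaurentSeries C →+* LaurentSeries C)
    (hΦ : ∀ (π : C →ₗ[k] k) (w : LaurentSeries C), mapFun π (ΦC w) = Φk (mapFun π w))
    {n : ℕ} (y : Fin n → LaurentSeries k)
    (hy : ∀ x : Fin n → LaurentSeries k, (∀ i, x i ∈ laurentBaseChange k F₀) →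
      ∑ i, Φk (x i) * y i = 0 → ∀ i, x i = 0)
    (z : Fin n → LaurentSeries C) (hz : ∀ i, z i ∈ laurentBaseChange C F₀)
    (h : ∑ i, ΦC (z i) * coeffMap (algebraMap k C) (y i) = 0) : ∀ i, z i = 0 := by
  obtain ⟨B, hB, hB0, hBz⟩ := exists_common_denominator F₀ Finset.univ z hz
  have h1 : ∑ i, coeffMap (algebraMap k C) (y i) * ΦC (z i * B) = 0 := by
    have : ∑ i, coeffMap (algebraMap k C) (y i) * ΦC (z i * B) =
        (∑ i, ΦC (z i) * coeffMap (algebraMap k C) (y i)) * ΦC B := by
      rw [Finset.sum_mul]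
      refine Finset.sum_congr rfl fun i _ => ?_
      rw [map_mul]; ring
    rw [this, h, zero_mul]
  have h2 : ∀ (π : C →ₗ[k] k) (i : Fin n), mapFun π (z i * B) = 0 := by
    intro π
    apply hy
    · intro i
      exact mapFun_mem_of_mem_closure π F₀ (hBz i (Finset.mem_univ i))
    · have h3 := congrArg (mapFun π) h1
      rw [map_sum, map_zero] at h3
      rw [← h3]
      refine Finset.sum_congr rfl fun i _ => ?_
      rw [mapFun_mul, hΦ, mul_comm]
  intro i
  have h4 : z i * B = 0 := by
    ext m
    rw [HahnSeries.coeff_zero, ← Module.forall_dual_apply_eq_zero_iff k]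
    intro π
    rw [← mapFun_coeff, h2 π i, HahnSeries.coeff_zero]
  exact (mul_eq_zero.mp h4).resolve_right hB0

/-- abstract: norms commute with a base change which preserves linear independence. -/
theorem norm_baseChange_of_linearIndependent {X Y Z W : Type*} [Field X] [Field Y] [Field Z] [Field W]
    [Algebra X Y] [Algebra X Z] [Algebra Y W] [Algebra Z W] [Algebra X W]
    [IsScalarTower X Y W] [IsScalarTower X Z W] [FiniteDimensional Z W]
    (hLD : ∀ (n : ℕ) (v : Fin n → Y), LinearIndependent X v →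
      LinearIndependent Z (fun i => algebraMap Y W (v i)))
    (hspan : Submodule.span Z (Set.range (algebraMap Y W)) = ⊤) :
    FiniteDimensional X Y ∧ Module.finrank X Y = Module.finrank Z W ∧
      ∀ f : Y, Algebra.norm Z (algebraMap Y W f) = algebraMap X Z (Algebra.norm X f) := by
  classical
  have hfin : FiniteDimensional X Y := by
    apply Module.rank_lt_aleph0_iff.mp
    refine lt_of_le_of_lt (rank_le (n := Module.finrank Z W) fun s hs => ?_)
      Cardinal.natCast_lt_aleph0
    have h1 : LinearIndependent X (fun i : Fin s.card => ((s.equivFin.symm i : s) : Y)) :=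
      hs.comp _ s.equivFin.symm.injective
    have h2 := (hLD _ _ h1).fintype_card_le_finrank
    rwa [Fintype.card_fin] at h2
  let bY := Module.finBasis X Y
  let v : Fin (Module.finrank X Y) → W := fun i => algebraMap Y W (bY i)
  have hv : ⊤ ≤ Submodule.span Z (Set.range v) := by
    rw [← hspan, Submodule.span_le]
    rintro _ ⟨y, rfl⟩
    rw [← bY.sum_repr y, map_sum]
    refine Submodule.sum_mem _ fun i _ => ?_
    rw [Algebra.smul_def, map_mul, ← IsScalarTower.algebraMap_apply X Y W,
      IsScalarTower.algebraMap_apply X Z W, ← Algebra.smul_def]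
    exact Submodule.smul_mem _ _ (Submodule.subset_span ⟨i, rfl⟩)
  have hli : LinearIndependent Z v := hLD _ _ bY.linearIndependent
  have hdeg : Module.finrank Z W = Module.finrank X Y := by
    rw [Module.finrank_eq_card_basis (Module.Basis.mk hli hv), Fintype.card_fin]
  exact ⟨hfin, hdeg.symm, fun f => Fermat.Agent.GAL.FFBC.norm_baseChange hspan hdeg f⟩

set_option maxHeartbeats 4000000 in
/-- general form of **[BC-NORM]**, **[BC-DEG]**. -/
theorem bc_general (hι : ∀ c : C, IsAlgebraic (ι.range) c)
    (F₀ F₁ : IntermediateField ℚ (LaurentSeries ℚ))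
    (ψk : laurentBaseChange k F₀ →ₐ[k] laurentBaseChange k F₁)
    (ψC : laurentBaseChange C F₀ →ₐ[C] laurentBaseChange C F₁)
    (Φk : LaurentSeries k →+* LaurentSeries k) (ΦC : LaurentSeries C →+* LaurentSeries C)
    (hk : ∀ x, ((ψk x : laurentBaseChange k F₁) : LaurentSeries k) = Φk x)
    (hC : ∀ x, ((ψC x : laurentBaseChange C F₁) : LaurentSeries C) = ΦC x)
    (hΦ : letI := ι.toAlgebra
      ∀ (π : C →ₗ[k] k) (w : LaurentSeries C), mapFun π (ΦC w) = Φk (mapFun π w))
    (hcomm : ∀ x, bcEmb ι F₁ (ψk x) = ψC (bcEmb ι F₀ x))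
    (hfin : FiniteAlong C ψC) :
    FiniteAlong k ψk ∧ finrankAlong k ψk = finrankAlong C ψC ∧
      ∀ y, bcEmb ι _ (normAlong ψk y) = normAlong ψC (bcEmb ι _ y) := by
  letI : Algebra k C := ι.toAlgebra
  letI a1 : Algebra (laurentBaseChange k F₀) (laurentBaseChange k F₁) := algebraAlong ψk
  letI a2 : Algebra (laurentBaseChange C F₀) (laurentBaseChange C F₁) := algebraAlong ψC
  letI a3 : Algebra (laurentBaseChange k F₀) (laurentBaseChange C F₀) := (bcEmb ι F₀).toAlgebra
  letI a4 : Algebra (laurentBaseChange k F₁) (laurentBaseChange C F₁) := (bcEmb ι F₁).toAlgebra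
  letI a5 : Algebra (laurentBaseChange k F₀) (laurentBaseChange C F₁) :=
    ((bcEmb ι F₁).comp ψk.toRingHom).toAlgebra
  haveI t1 : IsScalarTower (laurentBaseChange k F₀) (laurentBaseChange k F₁)
      (laurentBaseChange C F₁) := IsScalarTower.of_algebraMap_eq fun x => rfl
  haveI t2 : IsScalarTower (laurentBaseChange k F₀) (laurentBaseChange C F₀)
      (laurentBaseChange C F₁) := IsScalarTower.of_algebraMap_eq fun x => hcomm x
  haveI : FiniteDimensional (laurentBaseChange C F₀) (laurentBaseChange C F₁) := hfin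
  have hLD : ∀ (n : ℕ) (v : Fin n → laurentBaseChange k F₁),
      LinearIndependent (laurentBaseChange k F₀) v →
      LinearIndependent (laurentBaseChange C F₀)
        (fun i => algebraMap (laurentBaseChange k F₁) (laurentBaseChange C F₁) (v i)) := by
    intro n v hv
    rw [Fintype.linearIndependent_iff] at hv ⊢
    intro g hg i
    have key := linearIndependent_coeffMap F₀ Φk ΦC hΦ
      (fun i => ((v i : laurentBaseChange k F₁) : LaurentSeries k)) ?_
      (fun i => ((g i : laurentBaseChange C F₀) : LaurentSeries C)) (fun i => (g i).2) ?_ i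
    · exact Subtype.ext key
    · intro x hx hsum j
      have h1 := hv (fun i => ⟨x i, hx i⟩) ?_ j
      · exact congrArg Subtype.val h1
      · apply Subtype.ext
        rw [ZeroMemClass.coe_zero, ← hsum]
        simp only [Algebra.smul_def]
        rw [AddSubmonoidClass.coe_finsetSum]
        refine Finset.sum_congr rfl fun i _ => ?_
        exact congrArg (· * ((v i : laurentBaseChange k F₁) : LaurentSeries k)) (hk ⟨x i, hx i⟩)
    · have h1 := congrArg Subtype.val hg
      simp only [Algebra.smul_def] at h1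
      rw [AddSubmonoidClass.coe_finsetSum] at h1
      rw [← ZeroMemClass.coe_zero (laurentBaseChange C F₁), ← h1]
      refine Finset.sum_congr rfl fun i _ => ?_
      exact (congrArg (· * coeffMap ι ((v i : laurentBaseChange k F₁) : LaurentSeries k))
        (hC (g i))).symm
  have hspan : Submodule.span (laurentBaseChange C F₀)
      (Set.range (algebraMap (laurentBaseChange k F₁) (laurentBaseChange C F₁))) = ⊤ := by
    apply Fermat.Agent.GAL.FFBC.span_range_eq_top
    intro S hS1 hS2
    have h1 := adjoin_range_eq_top ι hι F₁ S.toSubring hS2 (fun c => by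
      have := hS1 (algebraMap C _ c)
      have h2 : algebraMap (laurentBaseChange C F₀) (laurentBaseChange C F₁) (algebraMap C _ c) =
          algebraMap C _ c := ψC.commutes c
      rw [h2] at this
      exact this)
    rw [eq_top_iff]
    intro x _
    have : x ∈ S.toSubring := by rw [h1]; trivial
    exact this
  obtain ⟨h1, h2, h3⟩ := norm_baseChange_of_linearIndependent hLD hspan
  exact ⟨h1, h2, fun y => (h3 y).symm⟩

variable (hι : ∀ c : C, IsAlgebraic (ι.range) c)
  (hfinα : FiniteAlong C (heckeAlphaBar C N q)) (hfinβ : FiniteAlong C (heckeBetaBar C N q))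

include hι hfinα in
/-- **[BC-NORM]**, **[BC-DEG]** for `α`. -/
theorem bc_alpha :
    FiniteAlong k (heckeAlphaBar k N q) ∧
    finrankAlong k (heckeAlphaBar k N q) = finrankAlong C (heckeAlphaBar C N q) ∧
    ∀ y, bcEmb ι _ (normAlong (heckeAlphaBar k N q) y) =
      normAlong (heckeAlphaBar C N q) (bcEmb ι _ y) :=
  bc_general ι hι _ _ (heckeAlphaBar k N q) (heckeAlphaBar C N q) (RingHom.id _) (RingHom.id _)
    (fun x => coe_heckeAlphaBar N q x) (fun x => coe_heckeAlphaBar N q x) (fun _ _ => rfl)
    (bcEmb_alpha ι N q) hfinα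

include hι hfinβ in
/-- **[BC-NORM]**, **[BC-DEG]** for `β`. -/
theorem bc_beta :
    FiniteAlong k (heckeBetaBar k N q) ∧
    finrankAlong k (heckeBetaBar k N q) = finrankAlong C (heckeBetaBar C N q) ∧
    ∀ y, bcEmb ι _ (normAlong (heckeBetaBar k N q) y) =
      normAlong (heckeBetaBar C N q) (bcEmb ι _ y) :=
  bc_general ι hι _ _ (heckeBetaBar k N q) (heckeBetaBar C N q) (qExpand k q) (qExpand C q)
    (fun x => coe_heckeBetaBar N q x) (fun x => coe_heckeBetaBar N q x)
    (letI := ι.toAlgebra; fun π w => mapFun_qExpand_bc π q w)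
    (bcEmb_beta ι N q) hfinβ

end Fermat.Agent.S36.Kum
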