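import Fermat.Agent.S36.Kum.Main
import Fermat.Agent.S36.Mod.Objects
import Fermat.Agent.S36.Abs.Steps
import Fermat.Agent.S36.Top.Wire

/-!
# S36 : final wiring

`HasDatum` (the modular instance of `GeomDatum` / `NormDatum`, for every context `C : Ctx` with
`aux C.q ∣ C.M`)
`⟹ Kum36 ⟹ Geo36 ⟹` the statement S36.
-/

set_option autoImplicit false
set_option linter.style.haveILetI false
set_option linter.unusedSectionVars false

noncomputable section

open AlgebraicCurve ModularCurve Polynomial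

namespace Fermat.Agent.S36.Kum

open Fermat.Agent.RED hiding Kb
open Fermat.Agent.S24 Fermat.Agent.RED.TorsES

/-- what the modular side has to provide: for every context, the two data, with the norms along the
two degeneracy maps. -/
def HasDatum : Prop :=
  ∀ C : Ctx, aux C.q ∣ C.M → ∃ (D : GeomDatum C.R C.K C.F) (N : NormDatum D C.F'), D.q = C.q ∧
    (∀ g, N.Nα g = normAlong C.α g) ∧ (∀ g, N.Nβ g = normAlong C.β g)

/-- `abs36` on the modular datum. -/
theorem kum36_of_datum (C : Ctx) (D : GeomDatum C.R C.K C.F) (N : NormDatum D C.F')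
    (hDq : D.q = C.q) (hα : ∀ g, N.Nα g = normAlong C.α g) (hβ : ∀ g, N.Nβ g = normAlong C.β g)
    (m : ℕ) (hm : m.Coprime C.q) :
    Kum36 (K0 C.A) (C.M * C.q) C.q m ((C.q ^ 2 - 1) ^ 2) := by
  have hm0 : m ≠ 0 := by
    rintro rfl
    rw [Nat.coprime_zero_left] at hm
    exact C.hq.one_lt.ne' hm
  obtain ⟨ζ, hζ⟩ := exists_primitiveRoot_R0 C.hq C.hA hm
  intro g hg hhor h1 h2
  have key := abs36 (R := C.R) (K := C.K) (F := C.F) N (m := m)
    (isUnit_natCast_R0 C.hq C.hA hm) ζ hζ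
    (fun r _ => by
      rw [hDq]
      exact exists_pow_sub_mem_R0 C.hq C.hA hm0 r) (g := g) hg hhor
    ⟨by rw [hα]; exact h1, by rw [hβ]; exact h2⟩
  rw [hDq] at key
  exact key

theorem geo36_of_hasDatum (h : HasDatum) (M₁ q p : ℕ) [NeZero M₁] [NeZero q] (hq : q.Prime)
    (hp : p.Prime) (hqp : q ≠ p) (hqM : q ∣ M₁) (hq2 : ¬ q ^ 2 ∣ M₁) : Top.Geo36 M₁ q p := by
  rw [Top.geo36_iff]
  refine ⟨(q ^ 2 - 1) ^ 2, ?_, ?_⟩
  · have : 1 < q ^ 2 := Nat.one_lt_pow (by norm_num) hq.one_lt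
    exact pow_ne_zero 2 (by omega)
  intro A hA y hy hI hA' hB'
  refine geo36_of_kum36 M₁ q p _ hq hp hqp.symm hqM hq2 A hA ?_ y hy hI hA' hB'
  intro M' _ hqM' haux m hm
  obtain ⟨ζ, hζ⟩ := HasEnoughRootsOfUnity.exists_primitiveRoot Kb q
  have hζ0 : ζ ≠ 0 := hζ.ne_zero hq.ne_zero
  let C : Ctx :=
    { A := A, q := q, M := M', hq := hq, hA := hA, hM := NeZero.ne M', hqM := hqM'
      ζ := Units.mk0 ζ hζ0
      hζ := by rw [← IsPrimitiveRoot.coe_units_iff]; exact hζ }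
  obtain ⟨D, N, hDq, hα, hβ⟩ := h C haux
  exact kum36_of_datum C D N hDq hα hβ m hm

end Fermat.Agent.S36.Kum
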