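import Fermat.Agent.S36.Kum.HorAbs
import Fermat.Agent.S36.Kum.Emb
import Fermat.Agent.S36.F0.Span
import Fermat.Agent.S36.Abs.Datum
import Fermat.Agent.GAL.HeckeInputs
import Fermat.Agent.GAL.DescentMain
import Fermat.Prelude.Def_ModularCurve_ArithmeticGalois

/-!
# S36 / [KUMMER36] : `[HOR]` without ramification theory

`hor_of_forall_place_gen` : `k ⊆ ℚbar` the fixed field of a subgroup `H` of `G_ℚ`,
`g ∈ laurentBaseChange k F_N`; if `m ∣ ord_P (bcEmb g)` at all places `P` of `FN N / ℚbar`, then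
`Hor k m g`.  (See `HorAbs.lean` for the idea.)
-/

set_option autoImplicit false
set_option linter.unusedSectionVars false

noncomputable section

open AlgebraicCurve ModularCurve

namespace Fermat.Agent.S36.Kum

open Fermat.Agent.S24 Fermat.Agent.S27

local notation "GQ" => (AlgebraicClosure ℚ ≃ₐ[ℚ] AlgebraicClosure ℚ)

section Val

variable {F0 Ft : Type*} [Field F0] [Field Ft]

/-- units can be tested in a dominating valuation ring -/
theorem valuation_eq_one_of_isLocalHom (φ : F0 →+* Ft) (W : ValuationSubring F0)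
    (B : ValuationSubring Ft) (h : ∀ x : W, (φ.comp W.subtype) x ∈ B.toSubring)
    (hl : IsLocalHom ((φ.comp W.subtype).codRestrict B.toSubring h))
    {z : F0} (hz : B.valuation (φ z) = 1) : W.valuation z = 1 := by
  have key : ∀ z : F0, z ∈ W → B.valuation (φ z) = 1 → W.valuation z = 1 := by
    intro z hzW hz
    have hz0 : φ z ≠ 0 := by
      intro h0
      rw [h0, map_zero] at hz
      exact zero_ne_one hz
    have hinv : (φ z)⁻¹ ∈ B.toSubring := by
      have : B.valuation (φ z)⁻¹ ≤ 1 := by rw [map_inv₀, hz, inv_one]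
      exact (B.valuation_le_one_iff _).1 this
    have hu : IsUnit ((φ.comp W.subtype).codRestrict B.toSubring h ⟨z, hzW⟩) := by
      rw [isUnit_iff_exists_inv]
      exact ⟨⟨(φ z)⁻¹, hinv⟩, Subtype.ext (mul_inv_cancel₀ hz0)⟩
    have hu' : IsUnit (⟨z, hzW⟩ : W) := hl.map_nonunit _ hu
    exact (W.valuation_eq_one_iff ⟨z, hzW⟩).1 hu'
  rcases W.mem_or_inv_mem z with hzW | hzW
  · exact key z hzW hz
  · have h1 := key z⁻¹ hzW (by rw [map_inv₀, map_inv₀, hz, inv_one])
    rwa [map_inv₀, inv_eq_one] at h1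

/-- a valuation ring contains the elements which are integral over a subfield contained in it -/
theorem mem_of_isIntegralElem {k : Type*} [Field k] (ψ : k →+* Ft) (B : ValuationSubring Ft)
    (hψ : ∀ c, ψ c ∈ B) {x : Ft} (hx : ψ.IsIntegralElem x) : x ∈ B := by
  obtain ⟨p, hp, hpx⟩ := hx
  have hψ' : ∀ c, ψ c ∈ B.valuation.integer := fun c =>
    (Valuation.mem_integer_iff _ _).2 ((B.valuation_le_one_iff _).2 (hψ c))
  have hint : IsIntegral B.valuation.integer x := by
    refine ⟨p.map (ψ.codRestrict B.valuation.integer hψ'), hp.map _, ?_⟩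
    rw [Polynomial.eval₂_map]
    exact hpx
  have := (Valuation.integer.integers B.valuation).mem_of_integral hint
  exact (B.valuation_le_one_iff _).1 ((Valuation.mem_integer_iff _ _).1 this)

end Val

variable {k : Type*} [Field k] [Algebra ℚ k] [Algebra k Kb]

theorem coeffMap_coeffEmb_gen (z : LaurentSeries ℚ) :
    coeffMap (algebraMap k Kb) (coeffEmb k z) = coeffEmb Kb z := by
  ext n
  show algebraMap k Kb (algebraMap ℚ k (z.coeff n)) = algebraMap ℚ Kb (z.coeff n)
  rw [eq_ratCast, eq_ratCast, map_ratCast]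

/-- `laurentBaseChange ℚbar F₀ = ℚbar · laurentBaseChange k F₀` -/
theorem span_range_bcEmb [Algebra.IsAlgebraic k Kb] (F₀ : IntermediateField ℚ (LaurentSeries ℚ)) :
    Submodule.span Kb (Set.range (bcEmb (algebraMap k Kb) F₀)) = ⊤ := by
  rw [eq_top_iff]
  intro x _
  have hx : (x : LaurentSeries Kb) ∈ IntermediateField.adjoin Kb
      (coeffMap (algebraMap k Kb) '' (⇑(coeffEmb k) '' (F₀ : Set (LaurentSeries ℚ)))) := by
    have : (x : LaurentSeries Kb) ∈ IntermediateField.adjoin Kb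
      (⇑(coeffEmb Kb) '' (F₀ : Set (LaurentSeries ℚ))) := x.2
    rw [Set.image_image]
    rwa [Set.image_congr fun z _ => coeffMap_coeffEmb_gen (k := k) z]
  obtain ⟨ι, _, c, y, hy, hxy⟩ := exists_sum_coeffMap_of_mem_adjoin _ _ hx
  have hx' : x = ∑ i, c i • bcEmb (algebraMap k Kb) F₀ ⟨y i, hy i⟩ := by
    apply Subtype.ext
    rw [hxy, AddSubmonoidClass.coe_finsetSum]
    refine Finset.sum_congr rfl fun i _ => ?_
    rw [Algebra.smul_def]
    rfl
  rw [hx']
  exact Submodule.sum_mem _ fun i _ => Submodule.smul_mem _ _ (Submodule.subset_span ⟨_, rfl⟩)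

variable (H : Subgroup GQ)

theorem smul_bcEmb (hH : ∀ σ ∈ H, ∀ c : k, σ (algebraMap k Kb c) = algebraMap k Kb c)
    (F₀ : IntermediateField ℚ (LaurentSeries ℚ)) {σ : GQ} (hσ : σ ∈ H)
    (y : laurentBaseChange k F₀) :
    arithmeticGalois F₀ σ • bcEmb (algebraMap k Kb) F₀ y = bcEmb (algebraMap k Kb) F₀ y := by
  apply Subtype.ext
  rw [coe_arithmeticGalois_smul, coe_bcEmb]
  ext n
  rw [coeffMap_coeff, coeffMap_coeff]
  exact hH σ hσ _

theorem mem_range_bcEmb_of_fixed_gen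
    (hfix : ∀ x : Kb, (∀ σ ∈ H, σ x = x) → x ∈ Set.range (algebraMap k Kb))
    (F₀ : IntermediateField ℚ (LaurentSeries ℚ)) (x : laurentBaseChange Kb F₀)
    (hx : ∀ σ ∈ H, arithmeticGalois F₀ σ • x = x) :
    x ∈ Set.range (bcEmb (algebraMap k Kb) F₀) := by
  obtain ⟨y, hy⟩ := GAL.Descent.exists_coeffMap_eq (algebraMap k Kb) (x : LaurentSeries Kb)
    (fun n => hfix _ fun σ hσ =>
      congrArg (fun z : laurentBaseChange Kb F₀ => (z : LaurentSeries Kb).coeff n) (hx σ hσ))
  refine ⟨⟨y, ?_⟩, Subtype.ext hy⟩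
  rw [← GAL.Descent.coeffMap_mem_laurentBaseChange_iff (algebraMap k Kb), hy]
  exact x.2

/-- **[HOR]**, general form. -/
theorem hor_of_forall_place_gen [Algebra.IsAlgebraic k Kb]
    (hH : ∀ σ ∈ H, ∀ c : k, σ (algebraMap k Kb c) = algebraMap k Kb c)
    (hfix : ∀ x : Kb, (∀ σ ∈ H, σ x = x) → x ∈ Set.range (algebraMap k Kb))
    (N : ℕ) [NeZero N] (m : ℕ)
    (g : laurentBaseChange k (modularFunctionFieldFull N)) (hg : g ≠ 0)
    (h : ∀ P : Place Kb (FN N), (m : ℤ) ∣ P.ord (bcEmb (algebraMap k Kb) _ g)) :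
    Hor k m g := by
  intro W hW
  set φ := bcEmb (algebraMap k Kb) (modularFunctionFieldFull N) with hφ
  obtain ⟨B, hB, hl⟩ := IsLocalRing.exists_factor_valuationRing (φ.comp W.subtype)
  have hone : ∀ {z}, B.valuation (φ z) = 1 → W.valuation z = 1 :=
    fun hz => valuation_eq_one_of_isLocalHom φ W B hB hl hz
  have hg0 : φ g ≠ 0 := (map_ne_zero φ).2 hg
  by_cases hBtop : B = ⊤
  · refine ⟨1, one_ne_zero, hone ?_⟩
    rw [one_pow, one_mul]
    have h1 : φ g ∈ B := hBtop ▸ ValuationSubring.mem_top _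
    have h2 : (φ g)⁻¹ ∈ B := hBtop ▸ ValuationSubring.mem_top _
    have h3 := (B.valuation_le_one_iff _).2 h1
    have h4 := (B.valuation_le_one_iff _).2 h2
    rw [map_inv₀] at h4
    exact le_antisymm h3 ((inv_le_one₀ (zero_lt_iff.2 ((Valuation.ne_zero_iff _).2 hg0))).1 h4)
  -- constants
  have hk : ∀ c : k, ((algebraMap Kb (FN N)).comp (algebraMap k Kb)) c ∈ B := by
    intro c
    have h1 := hB ⟨algebraMap k _ c, hW c⟩
    have h2 : (φ.comp W.subtype) ⟨algebraMap k _ c, hW c⟩ =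
        algebraMap Kb (FN N) (algebraMap k Kb c) := bcEmb_algebraMap _ _ c
    rw [h2] at h1
    exact h1
  have hK : ∀ a : Kb, algebraMap Kb (FN N) a ∈ B := by
    intro a
    refine mem_of_isIntegralElem _ B hk ?_
    have ha : IsIntegral k a := Algebra.IsIntegral.isIntegral a
    obtain ⟨p, hp, hpa⟩ := ha
    refine ⟨p, hp, ?_⟩
    rw [← Polynomial.hom_eval₂, hpa, map_zero]
  have hj := GAL.HeckeInputs.isFiniteParam_jF N
  obtain ⟨P, hP⟩ : ∃ P : Place Kb (FN N), P.toValuationSubring = B := by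
    rcases B.mem_or_inv_mem (jF N) with hjB | hjB
    · exact hj.exists_place_eq B hK hjB hBtop
    · exact hj.inv.exists_place_eq B hK hjB hBtop
  have : IsFF Kb (FN N) := ⟨⟨jF N, hj⟩⟩
  -- the group
  let G : Subgroup (SemilinearAut Kb (FN N)) :=
    H.map (arithmeticGalois (modularFunctionFieldFull N))
  have hGinv : ∀ y, ∀ γ ∈ G, γ • φ y = φ y := by
    rintro y _ ⟨σ, hσ, rfl⟩
    exact smul_bcEmb H hH _ hσ y
  obtain ⟨y, hy0, hyinv, hy1⟩ := exists_invariant_adic_eq_one G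
    (by
      rw [eq_top_iff, ← span_range_bcEmb (k := k) (modularFunctionFieldFull N)]
      refine Submodule.span_mono ?_
      rintro _ ⟨y, rfl⟩
      exact hGinv y)
    m (φ g) hg0 (hGinv g) h P
  obtain ⟨y₀, rfl⟩ := mem_range_bcEmb_of_fixed_gen H hfix _ y
    (fun σ hσ => hyinv _ ⟨σ, hσ, rfl⟩)
  refine ⟨y₀, fun h0 => hy0 (by rw [h0, map_zero]), hone ?_⟩
  rw [map_mul, map_pow]
  have hz0 : φ y₀ ^ m * φ g ≠ 0 := mul_ne_zero (pow_ne_zero _ hy0) hg0
  have h1 : φ y₀ ^ m * φ g ∈ B := by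
    rw [← hP, ← adic_le_one_iff_mem, hy1]
  have h2 : (φ y₀ ^ m * φ g)⁻¹ ∈ B := by
    rw [← hP, ← adic_le_one_iff_mem, map_inv₀, hy1, inv_one]
  have h3 := (B.valuation_le_one_iff _).2 h1
  have h4 := (B.valuation_le_one_iff _).2 h2
  rw [map_inv₀] at h4
  exact le_antisymm h3 ((inv_le_one₀ (zero_lt_iff.2 ((Valuation.ne_zero_iff _).2 hz0))).1 h4)

theorem isGalois_Kb_hor : IsGalois ℚ Kb := by
  have h1 : Algebra.IsAlgebraic ℚ (AlgebraicClosure ℚ) := AlgebraicClosure.isAlgebraic ℚ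
  have h2 : IsAlgClosure ℚ (AlgebraicClosure ℚ) := ⟨inferInstance, inferInstance⟩
  have h3 : Normal ℚ (AlgebraicClosure ℚ) := IsAlgClosure.normal ℚ (AlgebraicClosure ℚ)
  exact {}

set_option synthInstance.maxHeartbeats 400000 in
/-- **[HOR]** in the shape of `Kum/Hor.lean`. -/
theorem hor_of_forall_place' (E : IntermediateField ℚ Kb) (N : ℕ) [NeZero N] (m : ℕ)
    (g : laurentBaseChange E (modularFunctionFieldFull N)) (hg : g ≠ 0)
    (h : ∀ P : Place Kb (FN N), (m : ℤ) ∣ P.ord (bcEmb (algebraMap E Kb) _ g)) :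
    Hor E m g := by
  refine hor_of_forall_place_gen E.fixingSubgroup (fun σ hσ c => ?_) (fun x hx => ?_) N m g hg h
  · exact (IntermediateField.mem_fixingSubgroup_iff E σ).1 hσ _ c.2
  · have h1 : x ∈ IntermediateField.fixedField E.fixingSubgroup := by
      rw [IntermediateField.mem_fixedField_iff]
      exact hx
    have := isGalois_Kb_hor
    rw [InfiniteGalois.fixedField_fixingSubgroup] at h1
    exact ⟨⟨x, h1⟩, rfl⟩

end Fermat.Agent.S36.Kum
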