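import Fermat.Agent.S36.Kum.Unram
import Fermat.Agent.S36.Kum.Emb
import Fermat.Agent.S36.Abs.Datum
import Fermat.Agent.GAL.HeckeInputs
import Fermat.Agent.S36.Kum.Hor2

/-!
# S36 / [KUMMER36] : `[HOR]`  divisibility of the divisor over `ℚbar` gives `Hor` over a subfield
-/

set_option autoImplicit false
set_option linter.style.haveILetI false
set_option linter.unusedSectionVars false

noncomputable section

open AlgebraicCurve ModularCurve

namespace Fermat.Agent.S36.Kum

open Fermat.Agent.S24

set_option synthInstance.maxHeartbeats 400000 in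
/-- **[HOR]**  (proved in `Hor2.lean` by another route: Galois descent of subspaces instead of
`[UNRAM-CONST]`.)
Proof.  Let `W ⊇ E` be a valuation subring of `F₀ := laurentBaseChange E _`.  If `W = ⊤` take `h = 1`.
Otherwise let `P` be a valuation subring of `FN N` with `P.comap bcEmb = W` (`[VAL-EXT]`).  `P ⊇ Kb`
(`Kb` is integral over `E ⊆ W`, `P` is integrally closed), `P ≠ ⊤`, and `j ∈ P` or `j⁻¹ ∈ P`, so `P` is
the ring of a place `v` (`IsFiniteParam.exists_place_eq`, `IsFiniteParam.inv`,
`GAL.HeckeInputs.isFiniteParam_jF`).  The set `{v.ord (bcEmb x) | x ≠ 0}` is a non zero subgroup of `ℤ`;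
let `π` realise its positive generator `e`: then `W.valuation π < 1` and every `x ≠ 0` satisfies
`W.valuation x = W.valuation π ^ n`.  By `[UNRAM-CONST]` (`exists_zpow_of_constExt`, `hgen` from
`adjoin_range_eq_top`) applied to a uniformizer `u` of `v`: `v(u) = v(π)^n`, so `e n = 1`, `e = 1`.
Hence `v.ord (bcEmb g) = n_g` where `W.valuation g = W.valuation π ^ n_g`; `m ∣ n_g = m l`;
`h := π ^ (-l)`. -/
theorem hor_of_forall_place (E : IntermediateField ℚ Kb) (N : ℕ) [NeZero N] (m : ℕ)
    (g : laurentBaseChange E (modularFunctionFieldFull N)) (hg : g ≠ 0)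
    (h : ∀ P : Place Kb (FN N), (m : ℤ) ∣ P.ord (bcEmb (algebraMap E Kb) _ g)) :
    Hor E m g :=
  hor_of_forall_place' E N m g hg h

end Fermat.Agent.S36.Kum
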