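import Fermat.Agent.S27.Alt.Basic
import Fermat.Agent.S36.F0.Descent
import Fermat.Prelude.Def_AlgebraicCurve_BaseChangeGalois

/-!
# S36 / [KUMMER36] : `[HOR]`, abstract core (no ramification theory)

`F / K` a function field (`K` algebraically closed of characteristic `0`), `G` a group of semilinear
automorphisms of `F` such that `F` is spanned over `K` by its `G`-invariants.  If `f ≠ 0` is
`G`-invariant and `m ∣ ord_P f` for all places `P`, then for every place `P` there is a `G`-invariant
`y ≠ 0` with `ord_P (y ^ m * f) = 0`.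

Proof.  The support `S` of `div f` is finite and `G`-stable.  If `P ∈ S` choose `x` with
`ord_v x = - ord_v f / m` for all `v ∈ S`; then `ord_P (g x) = - ord_P f / m` for all `g ∈ G`.
The `K`-span `V` of the orbit of `x` is `G`-stable, hence spanned by its invariant elements
(`span_invariants_of_stable`).  All elements of `V` have `P`-adic valuation `≤ |x|_P`; if all invariant
elements of `V` had valuation `< |x|_P`, so would `x`.
-/

set_option autoImplicit false
set_option linter.unusedSectionVars false

open AlgebraicCurve WithZero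

namespace Fermat.Agent.S36.Kum

open Fermat.Agent.S27

variable {K F : Type*} [Field K] [Field F] [Algebra K F]

/-- the ball `{z | |z|_P ≤ γ}` as a `K`-subspace -/
def ballLE (P : Place K F) (γ : ℤᵐ⁰) : Submodule K F where
  carrier := {z | P.adicValuation z ≤ γ}
  zero_mem' := by simp
  add_mem' := fun {a b} ha hb => by
    show P.adicValuation (a + b) ≤ γ
    exact (Valuation.map_add _ _ _).trans (max_le ha hb)
  smul_mem' := fun c z hz => by
    show P.adicValuation (c • z) ≤ γ
    rw [Algebra.smul_def, map_mul]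
    exact (mul_le_of_le_one_left' (P.adicValuation_algebraMap_le_one c)).trans hz

/-- the ball `{z | |z|_P < γ}` as a `K`-subspace -/
def ballLT (P : Place K F) (γ : ℤᵐ⁰) (hγ : γ ≠ 0) : Submodule K F where
  carrier := {z | P.adicValuation z < γ}
  zero_mem' := by
    show P.adicValuation 0 < γ
    rw [map_zero]
    exact zero_lt_iff.2 hγ
  add_mem' := fun {a b} ha hb => by
    show P.adicValuation (a + b) < γ
    exact (Valuation.map_add _ _ _).trans_lt (max_lt ha hb)
  smul_mem' := fun c z hz => by
    show P.adicValuation (c • z) < γ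
    rw [Algebra.smul_def, map_mul]
    exact (mul_le_of_le_one_left' (P.adicValuation_algebraMap_le_one c)).trans_lt hz

theorem mem_ballLE {P : Place K F} {γ : ℤᵐ⁰} {z : F} :
    z ∈ ballLE P γ ↔ P.adicValuation z ≤ γ := Iff.rfl

theorem mem_ballLT {P : Place K F} {γ : ℤᵐ⁰} {hγ : γ ≠ 0} {z : F} :
    z ∈ ballLT P γ hγ ↔ P.adicValuation z < γ := Iff.rfl

theorem ord_smul_eq (g : SemilinearAut K F) (P : Place K F) (x : F) :
    P.ord (g • x) = (g⁻¹ • P).ord x := by
  have h := SemilinearAut.ord_smul g (g⁻¹ • P) x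
  rwa [smul_inv_smul] at h

theorem ord_inv_smul_of_fixed (g : SemilinearAut K F) (P : Place K F) {f : F} (hf : g • f = f) :
    (g⁻¹ • P).ord f = P.ord f := by
  rw [← ord_smul_eq, hf]

variable [IsAlgClosed K] [CharZero K] [IsFF K F]

theorem exists_invariant_adic_eq_one (G : Subgroup (SemilinearAut K F))
    (hspan : Submodule.span K {v : F | ∀ g ∈ G, g • v = v} = ⊤)
    (m : ℕ) (f : F) (hf : f ≠ 0) (hinv : ∀ g ∈ G, g • f = f)
    (hdiv : ∀ P : Place K F, (m : ℤ) ∣ P.ord f) (P : Place K F) :
    ∃ y : F, y ≠ 0 ∧ (∀ g ∈ G, g • y = y) ∧ P.adicValuation (y ^ m * f) = 1 := by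
  classical
  by_cases hP : P.ord f = 0
  · refine ⟨1, one_ne_zero, fun g _ => smul_one g, ?_⟩
    rw [one_pow, one_mul, P.adicValuation_eq_exp_neg_ord hf, hP]
    simp
  obtain ⟨x, hx0, hx⟩ := Alt.exists_ord_eq (K := K) (F := F) (divOf (K := K) f).support
    (fun v => -(v.ord f / m))
  have hmem : ∀ g ∈ G, g⁻¹ • P ∈ (divOf (K := K) f).support := by
    intro g hg
    rw [Finsupp.mem_support_iff, divOf_apply, ord_inv_smul_of_fixed g P (hinv g hg)]
    exact hP
  have hordx : ∀ g ∈ G, P.ord (g • x) = -(P.ord f / m) := by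
    intro g hg
    rw [ord_smul_eq, hx _ (hmem g hg), ord_inv_smul_of_fixed g P (hinv g hg)]
  set γ : ℤᵐ⁰ := exp (P.ord f / m) with hγ
  have hγ0 : γ ≠ 0 := exp_ne_zero
  have hval : ∀ g ∈ G, P.adicValuation (g • x) = γ := by
    intro g hg
    have h0 : g • x ≠ 0 := by simpa using hx0
    rw [P.adicValuation_eq_exp_neg_ord h0, hordx g hg, neg_neg]
  set V : Submodule K F := Submodule.span K {z | ∃ g ∈ G, z = g • x} with hV
  have hxV : x ∈ V := Submodule.subset_span ⟨1, G.one_mem, (one_smul _ x).symm⟩
  have hVle : V ≤ ballLE P γ := by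
    rw [hV, Submodule.span_le]
    rintro _ ⟨g, hg, rfl⟩
    exact mem_ballLE.2 (hval g hg).le
  have hsl : ∀ (g : SemilinearAut K F) (c : K) (v : F),
      g • (c • v) = SemilinearAut.baseAut g c • g • v := by
    intro g c v
    rw [Algebra.smul_def, Algebra.smul_def, smul_mul', SemilinearAut.smul_algebraMap]
  have hVst : ∀ g ∈ G, ∀ w ∈ V, g • w ∈ V := by
    intro g hg w hw
    rw [hV] at hw
    induction hw using Submodule.span_induction with
    | mem z hz =>
      obtain ⟨g', hg', rfl⟩ := hz
      exact Submodule.subset_span ⟨g * g', G.mul_mem hg hg', (mul_smul g g' x).symm⟩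
    | zero => rw [smul_zero]; exact V.zero_mem
    | add a b _ _ ha hb => rw [smul_add]; exact V.add_mem ha hb
    | smul c a _ ha => rw [hsl]; exact V.smul_mem _ ha
  have key := span_invariants_of_stable (K := K) (V := F) (ι := G)
    (fun g => ((SemilinearAut.baseAut (g : SemilinearAut K F) : K ≃+* K) : K →+* K))
    (fun g => ((SemilinearAut.toRingAut (g : SemilinearAut K F) : F ≃+* F) : F →+* F).toAddMonoidHom)
    (fun g c v => hsl (g : SemilinearAut K F) c v)
    (by
      rw [eq_top_iff, ← hspan]
      exact Submodule.span_mono fun v hv g => hv g g.2)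
    V (fun g w hw => hVst g g.2 w hw)
  by_contra hcon
  push Not at hcon
  have hlt : V ≤ ballLT P γ hγ0 := by
    rw [← key, Submodule.span_le]
    rintro y ⟨hyV, hyinv⟩
    have hyinv' : ∀ g ∈ G, g • y = y := fun g hg => hyinv ⟨g, hg⟩
    have hle : P.adicValuation y ≤ γ := mem_ballLE.1 (hVle hyV)
    refine mem_ballLT.2 (lt_of_le_of_ne hle fun heq => ?_)
    have hy0 : y ≠ 0 := by
      rintro rfl
      rw [map_zero] at heq
      exact hγ0 heq.symm
    apply hcon y hy0 hyinv'
    obtain ⟨e, he⟩ := hdiv P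
    have hm : (m : ℤ) ≠ 0 := by
      rintro h0
      rw [h0, zero_mul] at he
      exact hP he
    rw [map_mul, map_pow, heq, P.adicValuation_eq_exp_neg_ord hf, hγ, he,
      Int.mul_ediv_cancel_left _ hm, ← exp_nsmul, ← exp_add]
    simp
  have h1 : P.adicValuation x < γ := mem_ballLT.1 (hlt hxV)
  have h2 := hval 1 G.one_mem
  rw [one_smul] at h2
  exact absurd h2 h1.ne

end Fermat.Agent.S36.Kum
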