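import Mathlib

/-!
# S36 / [KUMMER36] : two abstract lemmas on valuation rings (Mathlib only)

* `exists_valuationSubring_comap_eq` `[VAL-EXT]` : a valuation ring of a field extends to any
  overfield.
* `exists_zpow_of_mem_adjoin`, `exists_zpow_of_constExt` `[UNRAM-CONST]` : a constant field extension
  (characteristic zero) is unramified: if `W ⊇ K₀` is a discrete valuation ring of `F₀` with
  uniformizer `π`, `Ft = F₀ · Kb` with `Kb / K₀` algebraic and `P` is a valuation ring of `Ft` above `W`,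
  then the value group of `P` is generated by the value of `π`.
-/

set_option autoImplicit false

open Polynomial

namespace Fermat.Agent.S36.Kum

/-- **[VAL-EXT]**  Proof: the image of `W` is a local subring of `Ft`
(`LocalSubring.range` / `LocalSubring.map`), dominated by a valuation subring `P`
(`LocalSubring.exists_le_valuationSubring`).  `W ≤ P.comap φ` is clear; if `x ∉ W` then `x⁻¹` is a non
unit of `W`, so `φ x⁻¹` is a non unit of `P` (domination = local homomorphism), so `φ x ∉ P`. -/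
theorem exists_valuationSubring_comap_eq {F0 Ft : Type*} [Field F0] [Field Ft] (φ : F0 →+* Ft)
    (W : ValuationSubring F0) : ∃ P : ValuationSubring Ft, P.comap φ = W := by
  obtain ⟨P, h, hloc⟩ := IsLocalRing.exists_factor_valuationRing (φ.comp W.subtype)
  refine ⟨P, ?_⟩
  ext x
  rw [ValuationSubring.mem_comap]
  constructor
  · intro hx
    by_contra hxW
    have hx0 : x ≠ 0 := by
      rintro rfl
      exact hxW W.zero_mem
    have hinv : x⁻¹ ∈ W := (W.mem_or_inv_mem x).resolve_left hxW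
    have hu : IsUnit ((φ.comp W.subtype).codRestrict P.toSubring h ⟨x⁻¹, hinv⟩) := by
      refine IsUnit.of_mul_eq_one (⟨φ x, hx⟩ : P.toSubring) ?_
      apply Subtype.ext
      change φ x⁻¹ * φ x = 1
      rw [← map_mul, inv_mul_cancel₀ hx0, map_one]
    have hu' : IsUnit (⟨x⁻¹, hinv⟩ : W) := hloc.map_nonunit _ hu
    obtain ⟨w, hw⟩ := hu'.exists_right_inv
    have h1 : x⁻¹ * (w : F0) = 1 := congrArg Subtype.val hw
    have h2 : (w : F0) = x := by
      field_simp at h1
      exact h1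
    exact hxW (h2 ▸ w.2)
  · intro hx
    exact h ⟨x, hx⟩

section aux

variable {F0 Ft : Type*} [Field F0] [Field Ft] [Algebra F0 Ft]

theorem ua_mem {W : ValuationSubring F0} {P : ValuationSubring Ft}
    (hP : P.comap (algebraMap F0 Ft) = W) {x : F0} (hx : x ∈ W) : algebraMap F0 Ft x ∈ P := by
  rw [← hP] at hx
  exact hx

theorem ua_le_one_iff {W : ValuationSubring F0} {P : ValuationSubring Ft}
    (hP : P.comap (algebraMap F0 Ft) = W) (x : F0) :
    P.valuation (algebraMap F0 Ft x) ≤ 1 ↔ W.valuation x ≤ 1 := by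
  rw [ValuationSubring.valuation_le_one_iff, ValuationSubring.valuation_le_one_iff, ← hP,
    ValuationSubring.mem_comap]

theorem ua_eq_one {W : ValuationSubring F0} {P : ValuationSubring Ft}
    (hP : P.comap (algebraMap F0 Ft) = W) {x : F0} (hx : W.valuation x = 1) :
    P.valuation (algebraMap F0 Ft x) = 1 := by
  have hx0 : x ≠ 0 := by
    rintro rfl
    simp at hx
  have h1 : P.valuation (algebraMap F0 Ft x) ≤ 1 := (ua_le_one_iff hP x).2 hx.le
  have h2 : P.valuation (algebraMap F0 Ft x⁻¹) ≤ 1 := by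
    rw [ua_le_one_iff hP, map_inv₀, hx, inv_one]
  rw [map_inv₀, map_inv₀] at h2
  have h0 : P.valuation (algebraMap F0 Ft x) ≠ 0 := by
    rw [Valuation.ne_zero_iff]
    simpa using hx0
  refine le_antisymm h1 ?_
  exact (inv_le_one₀ (zero_lt_iff.2 h0)).1 h2

theorem ua_lt_one {W : ValuationSubring F0} {P : ValuationSubring Ft}
    (hP : P.comap (algebraMap F0 Ft) = W) {x : F0} (hx : W.valuation x < 1) :
    P.valuation (algebraMap F0 Ft x) < 1 := by
  refine lt_of_le_of_ne ((ua_le_one_iff hP x).2 hx.le) fun h => ?_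
  have hx0 : x ≠ 0 := by
    rintro rfl
    simp at h
  have h2 : W.valuation x⁻¹ ≤ 1 := by
    rw [← ua_le_one_iff hP, map_inv₀, map_inv₀, h, inv_one]
  rw [map_inv₀] at h2
  have h0 : W.valuation x ≠ 0 := by
    rw [Valuation.ne_zero_iff]
    exact hx0
  exact absurd ((inv_le_one₀ (zero_lt_iff.2 h0)).1 h2) (not_le.2 hx)

theorem ua_transfer {W : ValuationSubring F0} {P : ValuationSubring Ft}
    (hP : P.comap (algebraMap F0 Ft) = W) {π : F0} (hπ0 : π ≠ 0) {x : F0} {n : ℤ}
    (h : W.valuation x = W.valuation π ^ n) :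
    P.valuation (algebraMap F0 Ft x) = P.valuation (algebraMap F0 Ft π) ^ n := by
  have hv0 : W.valuation π ≠ 0 := (Valuation.ne_zero_iff _).2 hπ0
  have h1 : W.valuation (x * (π ^ n)⁻¹) = 1 := by
    rw [map_mul, map_inv₀, map_zpow₀, h, mul_inv_cancel₀ (zpow_ne_zero _ hv0)]
  have h2 := ua_eq_one hP h1
  rw [map_mul, map_mul, map_inv₀, map_inv₀, map_zpow₀, map_zpow₀] at h2
  have hv0' : P.valuation (algebraMap F0 Ft π) ≠ 0 := by
    rw [Valuation.ne_zero_iff]
    simpa using hπ0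
  exact (mul_inv_eq_one₀ (zpow_ne_zero _ hv0')).1 h2

end aux

section key

variable {K0 F0 Ft : Type*} [Field K0] [CharZero K0] [Field F0] [Field Ft]
  [Algebra K0 F0] [Algebra F0 Ft] [Algebra K0 Ft] [IsScalarTower K0 F0 Ft]

/-- evaluation of a polynomial with coefficients in `W` at `θ`. -/
noncomputable def uev (W : ValuationSubring F0) (θ : Ft) : (W : Type _)[X] →+* Ft :=
  eval₂RingHom ((algebraMap F0 Ft).comp W.subtype) θ

omit [CharZero K0] in
theorem theta_mem (W : ValuationSubring F0) (hK : ∀ c : K0, algebraMap K0 F0 c ∈ W)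
    (P : ValuationSubring Ft) (hP : P.comap (algebraMap F0 Ft) = W)
    (θ : Ft) (hθ : IsAlgebraic K0 θ) : θ ∈ P := by
  have hint : IsIntegral K0 θ := hθ.isIntegral
  obtain ⟨p, hp, hp0⟩ := hint
  have h1 : IsIntegral P θ := by
    let j : K0 →+* P := (algebraMap K0 Ft).codRestrict P fun c => by
      have := hK c
      rw [← hP, ValuationSubring.mem_comap, ← IsScalarTower.algebraMap_apply] at this
      exact this
    refine ⟨p.map j, hp.map j, ?_⟩
    rw [eval₂_map]
    exact hp0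
  obtain ⟨y, hy⟩ := IsIntegrallyClosed.isIntegral_iff.1 h1
  rw [← hy]
  exact y.2

theorem uev_mem (W : ValuationSubring F0) (P : ValuationSubring Ft)
    (hP : P.comap (algebraMap F0 Ft) = W) {θ : Ft} (hθP : θ ∈ P) (g : (W : Type _)[X]) :
    uev W θ g ∈ P := by
  unfold uev
  rw [coe_eval₂RingHom, eval₂_eq_sum_range]
  refine sum_mem fun i _ => mul_mem ?_ (pow_mem hθP i)
  exact ua_mem hP (g.coeff i).2

/-- the maximal ideal of `W` is generated by `π`. -/
theorem dvd_of_lt_one (W : ValuationSubring F0) (π : F0) (hπ0 : π ≠ 0) (hπ1 : W.valuation π < 1)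
    (hπ : ∀ x : F0, x ≠ 0 → ∃ n : ℤ, W.valuation x = W.valuation π ^ n)
    (x : W) (hx : W.valuation (x : F0) < 1) :
    (⟨π, (W.valuation_le_one_iff π).1 hπ1.le⟩ : W) ∣ x := by
  rcases eq_or_ne (x : F0) 0 with h0 | h0
  · have : x = 0 := Subtype.ext h0
    rw [this]
    exact dvd_zero _
  obtain ⟨n, hn⟩ := hπ x h0
  have hv0 : W.valuation π ≠ 0 := (Valuation.ne_zero_iff _).2 hπ0
  have hn1 : 1 ≤ n := by
    by_contra hcon
    have hn0 : n ≤ 0 := by omega
    rw [hn] at hx
    have h1 : (1 : W.ValueGroup) ≤ W.valuation π ^ n := by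
      obtain ⟨k, rfl⟩ : ∃ k : ℕ, n = -(k : ℤ) := ⟨(-n).toNat, by omega⟩
      rw [zpow_neg, zpow_natCast]
      exact (one_le_inv₀ (zero_lt_iff.2 (pow_ne_zero _ hv0))).2 (pow_le_one' hπ1.le k)
    exact absurd hx (not_lt.2 h1)
  have hmem : (x : F0) * π⁻¹ ∈ W := by
    rw [← W.valuation_le_one_iff, map_mul, map_inv₀, hn]
    obtain ⟨k, rfl⟩ : ∃ k : ℕ, n = (k : ℤ) + 1 := ⟨(n - 1).toNat, by omega⟩
    rw [zpow_add₀ hv0, zpow_one, mul_assoc, mul_inv_cancel₀ hv0, mul_one, zpow_natCast]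
    exact pow_le_one' hπ1.le k
  refine ⟨⟨(x : F0) * π⁻¹, hmem⟩, ?_⟩
  apply Subtype.ext
  change (x : F0) = π * ((x : F0) * π⁻¹)
  field_simp

theorem C_dvd_of_map_eq_zero (W : ValuationSubring F0) (π : F0) (hπ0 : π ≠ 0)
    (hπ1 : W.valuation π < 1)
    (hπ : ∀ x : F0, x ≠ 0 → ∃ n : ℤ, W.valuation x = W.valuation π ^ n)
    (g : (W : Type _)[X]) (hg : g.map (IsLocalRing.residue W) = 0) :
    C (⟨π, (W.valuation_le_one_iff π).1 hπ1.le⟩ : W) ∣ g := by
  rw [C_dvd_iff_dvd_coeff]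
  intro i
  apply dvd_of_lt_one W π hπ0 hπ1 hπ
  have h1 : IsLocalRing.residue W (g.coeff i) = 0 := by
    rw [← coeff_map, hg, coeff_zero]
  rw [IsLocalRing.residue_eq_zero_iff] at h1
  exact (W.valuation_lt_one_iff _).1 h1

/-- **the key step**: a unit `ρ = r(θ)` with `z ρ ∈ π W[θ]` for all `z ∈ W[θ] ∩ 𝔪_P`. -/
theorem exists_rho (W : ValuationSubring F0)
    (hK : ∀ c : K0, algebraMap K0 F0 c ∈ W) (π : F0) (hπ0 : π ≠ 0) (hπ1 : W.valuation π < 1)
    (hπ : ∀ x : F0, x ≠ 0 → ∃ n : ℤ, W.valuation x = W.valuation π ^ n)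
    (P : ValuationSubring Ft) (hP : P.comap (algebraMap F0 Ft) = W)
    (θ : Ft) (hθ : IsAlgebraic K0 θ) :
    ∃ r : (W : Type _)[X], P.valuation (uev W θ r) = 1 ∧
      ∀ g : (W : Type _)[X], P.valuation (uev W θ g) < 1 →
        ∃ g' : (W : Type _)[X], uev W θ g * uev W θ r = algebraMap F0 Ft π * uev W θ g' := by
  classical
  have hθP : θ ∈ P := theta_mem W hK P hP θ hθ
  set πW : W := ⟨π, (W.valuation_le_one_iff π).1 hπ1.le⟩ with hπW
  let ι : W →+* P := ((algebraMap F0 Ft).comp W.subtype).codRestrict P fun x => ua_mem hP x.2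
  have hloc : IsLocalHom ι := by
    refine ⟨fun a ha => ?_⟩
    rw [ValuationSubring.valuation_eq_one_iff] at ha ⊢
    by_contra hne
    have hlt : W.valuation (a : F0) < 1 := lt_of_le_of_ne (W.valuation_le_one a) hne
    exact absurd ha (ua_lt_one hP hlt).ne
  let θP : P := ⟨θ, hθP⟩
  let evP : (W : Type _)[X] →+* P := eval₂RingHom ι θP
  have hev : ∀ g, ((evP g : P) : Ft) = uev W θ g := by
    intro g
    have h1 := hom_eval₂ g ι P.subtype θP
    exact h1
  let resW := IsLocalRing.residue W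
  let resP := IsLocalRing.residue P
  let ιb : IsLocalRing.ResidueField W →+* IsLocalRing.ResidueField P :=
    IsLocalRing.ResidueField.map ι
  let _ : Algebra (IsLocalRing.ResidueField W) (IsLocalRing.ResidueField P) := ιb.toAlgebra
  let θb : IsLocalRing.ResidueField P := resP θP
  have hres : ∀ g : (W : Type _)[X], resP (evP g) = aeval θb (g.map resW) := by
    intro g
    have h1 : resP (evP g) = eval₂ (resP.comp ι) (resP θP) g := hom_eval₂ g ι resP θP
    rw [h1, aeval_def, eval₂_map]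
    rfl
  -- the minimal polynomial of `θ` over `K₀`
  set p : K0[X] := minpoly K0 θ with hp
  have hsep : p.Separable := (minpoly.irreducible hθ.isIntegral).separable
  let jK : K0 →+* W := (algebraMap K0 F0).codRestrict W hK
  set pW : (W : Type _)[X] := p.map jK with hpW
  have hpW0 : uev W θ pW = 0 := by
    unfold uev
    rw [coe_eval₂RingHom, hpW, eval₂_map]
    have h1 : ((algebraMap F0 Ft).comp W.subtype).comp jK = algebraMap K0 Ft := by
      ext c
      exact (IsScalarTower.algebraMap_apply K0 F0 Ft c).symm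
    rw [h1]
    exact minpoly.aeval K0 θ
  set pb : (IsLocalRing.ResidueField W)[X] := pW.map resW with hpb
  have hpbsep : pb.Separable := by
    rw [hpb, hpW, map_map]
    exact hsep.map
  have hpb0 : aeval θb pb = 0 := by
    rw [hpb, ← hres]
    have : evP pW = 0 := Subtype.ext (by rw [hev, hpW0]; rfl)
    rw [this, map_zero]
  have hpbmonic : pb.Monic := ((minpoly.monic hθ.isIntegral).map jK).map resW
  have hintb : IsIntegral (IsLocalRing.ResidueField W) θb := ⟨pb, hpbmonic, hpb0⟩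
  set qb := minpoly (IsLocalRing.ResidueField W) θb with hqb
  obtain ⟨rb, hrb⟩ : qb ∣ pb := minpoly.dvd _ _ hpb0
  have hrb0 : aeval θb rb ≠ 0 := by
    intro h0
    obtain ⟨cb, hcb⟩ : qb ∣ rb := minpoly.dvd _ _ h0
    have h1 : qb * qb ∣ pb := ⟨cb, by rw [hrb, hcb]; ring⟩
    exact minpoly.not_isUnit _ θb (hpbsep.squarefree qb h1)
  have hsurj : Function.Surjective (Polynomial.map resW) :=
    map_surjective resW IsLocalRing.residue_surjective
  obtain ⟨Q, hQ⟩ := hsurj qb
  obtain ⟨r, hr⟩ := hsurj rb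
  obtain ⟨s, hs⟩ : C πW ∣ pW - Q * r := by
    apply C_dvd_of_map_eq_zero W π hπ0 hπ1 hπ
    rw [Polynomial.map_sub, Polynomial.map_mul]
    change pb - Polynomial.map resW Q * Polynomial.map resW r = 0
    rw [hQ, hr, hrb, sub_self]
  have hCπ : uev W θ (C πW) = algebraMap F0 Ft π := by
    unfold uev
    rw [coe_eval₂RingHom, eval₂_C]
    rfl
  have hQr : uev W θ Q * uev W θ r = - (algebraMap F0 Ft π * uev W θ s) := by
    have h1 : uev W θ (pW - Q * r) = uev W θ (C πW * s) := by rw [hs]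
    rw [map_sub, map_mul, map_mul, hpW0, hCπ] at h1
    linear_combination -h1
  refine ⟨r, ?_, fun g hg => ?_⟩
  · have h1 : IsUnit (evP r) := by
      by_contra hnu
      have h2 : resP (evP r) = 0 := (IsLocalRing.residue_eq_zero_iff _).2 hnu
      rw [hres, hr] at h2
      exact hrb0 h2
    rw [ValuationSubring.valuation_eq_one_iff, hev] at h1
    exact h1
  · have h1 : resP (evP g) = 0 := by
      rw [IsLocalRing.residue_eq_zero_iff, ValuationSubring.valuation_lt_one_iff, hev]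
      exact hg
    rw [hres] at h1
    obtain ⟨ab, hab⟩ : qb ∣ g.map resW := minpoly.dvd _ _ h1
    obtain ⟨a, ha⟩ := hsurj ab
    obtain ⟨b, hb⟩ : C πW ∣ g - Q * a := by
      apply C_dvd_of_map_eq_zero W π hπ0 hπ1 hπ
      rw [Polynomial.map_sub, Polynomial.map_mul]
      change Polynomial.map resW g - Polynomial.map resW Q * Polynomial.map resW a = 0
      rw [hQ, ha, hab, sub_self]
    have h2 : uev W θ (g - Q * a) = uev W θ (C πW * b) := by rw [hb]
    rw [map_sub, map_mul, map_mul, hCπ] at h2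
    refine ⟨b * r - a * s, ?_⟩
    rw [map_sub, map_mul, map_mul]
    linear_combination (uev W θ r) * h2 + (uev W θ a) * hQr

/-- (d) a lower bound for the valuation of a nonzero algebraic element of `P`. -/
theorem exists_pow_le (W : ValuationSubring F0) (π : F0) (hπ0 : π ≠ 0) (hπ1 : W.valuation π < 1)
    (hπ : ∀ x : F0, x ≠ 0 → ∃ n : ℤ, W.valuation x = W.valuation π ^ n)
    (P : ValuationSubring Ft) (hP : P.comap (algebraMap F0 Ft) = W)
    (z : Ft) (hzP : z ∈ P) (hz : IsAlgebraic F0 z) (hz0 : z ≠ 0) :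
    ∃ k : ℕ, P.valuation (algebraMap F0 Ft π) ^ k ≤ P.valuation z := by
  set m := minpoly F0 z with hm
  have hm0 : m.coeff 0 ≠ 0 := minpoly.coeff_zero_ne_zero hz.isIntegral hz0
  obtain ⟨b, hbM, hb⟩ := IsLocalization.integerNormalization_spec (nonZeroDivisors W) m
  set g := IsLocalization.integerNormalization (nonZeroDivisors W) m with hg
  have hb0 : ((b : W) : F0) ≠ 0 := by
    intro h
    exact nonZeroDivisors.ne_zero hbM (Subtype.ext h)
  have hcoeff : ∀ i, ((g.coeff i : W) : F0) = ((b : W) : F0) * m.coeff i := by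
    intro i
    have h1 := congrArg (fun q => coeff q i) hb
    simp only [coeff_map, coeff_smul] at h1
    rw [Algebra.smul_def] at h1
    exact h1
  have hg0 : uev W z g = 0 := by
    unfold uev
    rw [coe_eval₂RingHom]
    have h1 : eval₂ ((algebraMap F0 Ft).comp W.subtype) z g =
        eval₂ (algebraMap F0 Ft) z (g.map (algebraMap W F0)) := by
      rw [eval₂_map]
      rfl
    rw [h1, hb, ← aeval_def, Algebra.smul_def, map_mul, hm, minpoly.aeval, mul_zero]
  have hsplit : uev W z (divX g) * z + algebraMap F0 Ft (g.coeff 0 : W) = 0 := by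
    have h1 : uev W z (divX g * X + C (g.coeff 0)) = 0 := by rw [divX_mul_X_add, hg0]
    rw [map_add, map_mul] at h1
    unfold uev at h1 ⊢
    rw [coe_eval₂RingHom, eval₂_X, eval₂_C] at h1
    exact h1
  have ha0 : ((g.coeff 0 : W) : F0) ≠ 0 := by
    rw [hcoeff]
    exact mul_ne_zero hb0 hm0
  obtain ⟨n, hn⟩ := hπ _ ha0
  have hv0 : W.valuation π ≠ 0 := (Valuation.ne_zero_iff _).2 hπ0
  have hn0 : 0 ≤ n := by
    by_contra hcon
    have h1 : W.valuation ((g.coeff 0 : W) : F0) ≤ 1 := W.valuation_le_one _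
    rw [hn] at h1
    obtain ⟨k, rfl⟩ : ∃ k : ℕ, n = -((k : ℤ) + 1) := ⟨(-n - 1).toNat, by omega⟩
    rw [zpow_neg, inv_le_one₀ (zero_lt_iff.2 (zpow_ne_zero _ hv0))] at h1
    have h2 : W.valuation π ^ ((k : ℤ) + 1) < 1 := by
      rw [zpow_add₀ hv0, zpow_one, zpow_natCast]
      exact lt_of_le_of_lt (mul_le_of_le_one_left' (pow_le_one' hπ1.le k)) hπ1
    exact absurd h1 (not_le.2 h2)
  obtain ⟨k, rfl⟩ : ∃ k : ℕ, n = (k : ℤ) := ⟨n.toNat, by omega⟩
  refine ⟨k, ?_⟩
  have h3 := ua_transfer hP hπ0 hn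
  rw [zpow_natCast] at h3
  rw [← h3]
  have h4 : algebraMap F0 Ft (g.coeff 0 : W) = - (uev W z (divX g) * z) := by
    linear_combination hsplit
  rw [h4, Valuation.map_neg, map_mul]
  exact mul_le_of_le_one_left' ((P.valuation_le_one_iff _).2 (uev_mem W P hP hzP _))

/-- (e) the valuation of a nonzero element of `W[θ]` is a power of the valuation of `π`. -/
theorem exists_pow_of_uev (W : ValuationSubring F0)
    (hK : ∀ c : K0, algebraMap K0 F0 c ∈ W) (π : F0) (hπ0 : π ≠ 0) (hπ1 : W.valuation π < 1)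
    (hπ : ∀ x : F0, x ≠ 0 → ∃ n : ℤ, W.valuation x = W.valuation π ^ n)
    (P : ValuationSubring Ft) (hP : P.comap (algebraMap F0 Ft) = W)
    (θ : Ft) (hθ : IsAlgebraic K0 θ) (g : (W : Type _)[X]) (hg0 : uev W θ g ≠ 0) :
    ∃ k : ℕ, P.valuation (uev W θ g) = P.valuation (algebraMap F0 Ft π) ^ k := by
  have hθP : θ ∈ P := theta_mem W hK P hP θ hθ
  obtain ⟨r, hr1, hr⟩ := exists_rho W hK π hπ0 hπ1 hπ P hP θ hθ
  have hvπ0 : P.valuation (algebraMap F0 Ft π) ≠ 0 := by
    rw [Valuation.ne_zero_iff]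
    simpa using hπ0
  have key : ∀ (N : ℕ) (g : (W : Type _)[X]), uev W θ g ≠ 0 →
      P.valuation (algebraMap F0 Ft π) ^ N ≤ P.valuation (uev W θ g) →
      ∃ k : ℕ, P.valuation (uev W θ g) = P.valuation (algebraMap F0 Ft π) ^ k := by
    intro N
    induction N with
    | zero =>
      intro g _ hle
      rw [pow_zero] at hle
      exact ⟨0, by
        rw [pow_zero]
        exact le_antisymm ((P.valuation_le_one_iff _).2 (uev_mem W P hP hθP g)) hle⟩
    | succ N ih =>
      intro g hg0 hle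
      rcases eq_or_lt_of_le ((P.valuation_le_one_iff _).2 (uev_mem W P hP hθP g)) with h1 | h1
      · exact ⟨0, by rw [pow_zero, h1]⟩
      · obtain ⟨g', hg'⟩ := hr g h1
        have h2 : P.valuation (uev W θ g) =
            P.valuation (algebraMap F0 Ft π) * P.valuation (uev W θ g') := by
          rw [← map_mul, ← hg', map_mul, hr1, mul_one]
        have hg'0 : uev W θ g' ≠ 0 := by
          intro h0
          rw [h0, map_zero, mul_zero] at h2
          exact hg0 ((Valuation.zero_iff _).1 h2)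
        have h3 : P.valuation (algebraMap F0 Ft π) ^ N ≤ P.valuation (uev W θ g') := by
          rw [h2, pow_succ'] at hle
          exact (mul_le_mul_iff_right₀ (zero_lt_iff.2 hvπ0)).1 hle
        obtain ⟨k, hk⟩ := ih g' hg'0 h3
        exact ⟨k + 1, by rw [h2, hk, pow_succ']⟩
  have halg : IsAlgebraic F0 (uev W θ g) := by
    have h1 : IsAlgebraic F0 θ := hθ.tower_top F0
    have h2 : uev W θ g = aeval θ (g.map (algebraMap W F0)) := by
      unfold uev
      rw [coe_eval₂RingHom, aeval_def, eval₂_map]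
      rfl
    rw [h2, isAlgebraic_iff_isIntegral]
    have h3 : Algebra.adjoin F0 {θ} ≤ integralClosure F0 Ft :=
      Algebra.adjoin_le (Set.singleton_subset_iff.2 h1.isIntegral)
    exact h3 (aeval_mem_adjoin_singleton F0 θ)
  obtain ⟨N, hN⟩ := exists_pow_le W π hπ0 hπ1 hπ P hP _ (uev_mem W P hP hθP g) halg hg0
  exact key N g hg0 hN

end key

section main

variable {K0 F0 Ft : Type*} [Field K0] [CharZero K0] [Field F0] [Field Ft]
  [Algebra K0 F0] [Algebra F0 Ft] [Algebra K0 Ft] [IsScalarTower K0 F0 Ft]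

/-- **[UNRAM-θ]**
Proof.  `p := minpoly K₀ θ` (separable: characteristic zero), `S := W[θ] ⊆ P` (`θ` is integral over
`K₀ ⊆ W`).  Let `Q ∈ W[X]` be monic of minimal degree with `Q(θ) ∈ 𝔪_P` (`p` is a candidate).
(a) if `b ∈ W[X]`, `deg b < deg Q` and `b(θ) ∈ 𝔪_P` then `b ∈ π W[X]` (otherwise cut `b` at the highest
coefficient which is a unit, divide by it: monic of smaller degree).
(b) `p = Q r + s`, `deg s < deg Q`, so `s ∈ π W[X]` by (a).  `ρ := r(θ)` is a unit of `P`: otherwise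
`p'(θ) = Q'(θ) r(θ) + Q(θ) r'(θ) + s'(θ) ∈ 𝔪_P`, but `a p + b p' = 1` in `K₀[X]` gives
`b(θ) p'(θ) = 1`.
(c) if `z = g(θ) ∈ 𝔪_P`, `g ∈ W[X]`: `g = Q a + b`, `b ∈ π W[X]` by (a), hence
`z ρ = (p - s)(θ) a(θ) + b(θ) ρ ∈ π S`.
(d) every `z ≠ 0` in `S` satisfies `v(π)^k ≤ v_P(z)` for some `k` (`z` is algebraic over `F₀`: take a
relation `∑ a_i z^i = 0`, `a_i ∈ W`, `a_0 ≠ 0`; `v(a_0) ≤ v(z)`).
(e) induction on `k`: `v_P(z) ∈ v(π)^ℕ` for `z ∈ S \ {0}`.
(f) `z ∈ F₀[θ]`: `π^N z ∈ S`. -/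
theorem exists_zpow_of_mem_adjoin (W : ValuationSubring F0)
    (hK : ∀ c : K0, algebraMap K0 F0 c ∈ W) (π : F0) (hπ0 : π ≠ 0) (hπ1 : W.valuation π < 1)
    (hπ : ∀ x : F0, x ≠ 0 → ∃ n : ℤ, W.valuation x = W.valuation π ^ n)
    (P : ValuationSubring Ft) (hP : P.comap (algebraMap F0 Ft) = W)
    (θ : Ft) (hθ : IsAlgebraic K0 θ) (z : Ft) (hz : z ∈ Algebra.adjoin F0 {θ}) (hz0 : z ≠ 0) :
    ∃ n : ℤ, P.valuation z = P.valuation (algebraMap F0 Ft π) ^ n := by
  have hz' : z ∈ (aeval θ : F0[X] →ₐ[F0] Ft).range := by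
    rw [← Algebra.adjoin_singleton_eq_range_aeval]
    exact hz
  obtain ⟨m, hm⟩ := hz'
  have hm' : aeval θ m = z := hm
  subst hm'
  obtain ⟨b, hbM, hb⟩ := IsLocalization.integerNormalization_spec (nonZeroDivisors W) m
  set g := IsLocalization.integerNormalization (nonZeroDivisors W) m with hg
  have hb0 : ((b : W) : F0) ≠ 0 := by
    intro h
    exact nonZeroDivisors.ne_zero hbM (Subtype.ext h)
  have h1 : uev W θ g = algebraMap F0 Ft ((b : W) : F0) * aeval θ m := by
    unfold uev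
    rw [coe_eval₂RingHom]
    have h2 : eval₂ ((algebraMap F0 Ft).comp W.subtype) θ g =
        eval₂ (algebraMap F0 Ft) θ (g.map (algebraMap W F0)) := by
      rw [eval₂_map]
      rfl
    rw [h2, hb, ← aeval_def, Algebra.smul_def, map_mul]
    congr 1
    exact aeval_C _ _
  have hbt : algebraMap F0 Ft ((b : W) : F0) ≠ 0 := by simp [hb0]
  have hg0 : uev W θ g ≠ 0 := by
    rw [h1]
    exact mul_ne_zero hbt hz0
  obtain ⟨k, hk⟩ := exists_pow_of_uev W hK π hπ0 hπ1 hπ P hP θ hθ g hg0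
  obtain ⟨n, hn⟩ := hπ _ hb0
  have hn' := ua_transfer hP hπ0 hn
  have hvπ0 : P.valuation (algebraMap F0 Ft π) ≠ 0 := by
    rw [Valuation.ne_zero_iff]
    simpa using hπ0
  refine ⟨(k : ℤ) - n, ?_⟩
  rw [h1, map_mul, hn'] at hk
  rw [zpow_sub₀ hvπ0, zpow_natCast, ← hk, mul_comm, mul_div_assoc,
    div_self (zpow_ne_zero _ hvπ0), mul_one]

/-- two algebraic elements lie in `K₀[θ₀]` for a common `θ₀`. -/
theorem exists_common_primitive {Kb : Type*} [Field Kb] [Algebra K0 Kb]
    [Algebra.IsAlgebraic K0 Kb] (a b : Kb) :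
    ∃ θ0 : Kb, a ∈ Algebra.adjoin K0 {θ0} ∧ b ∈ Algebra.adjoin K0 {θ0} := by
  set E : IntermediateField K0 Kb := IntermediateField.adjoin K0 {a, b} with hE
  have hfin : FiniteDimensional K0 E := by
    apply IntermediateField.finiteDimensional_adjoin
    intro x _
    exact (Algebra.IsAlgebraic.isAlgebraic x).isIntegral
  obtain ⟨α, hα⟩ := Field.exists_primitive_element K0 E
  have hαalg : IsAlgebraic K0 α := Algebra.IsAlgebraic.isAlgebraic α
  have htop : Algebra.adjoin K0 {α} = ⊤ := by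
    rw [← IntermediateField.adjoin_simple_toSubalgebra_of_isAlgebraic hαalg, hα]
    rfl
  have hmap : ∀ x : E, (x : Kb) ∈ Algebra.adjoin K0 {(α : Kb)} := by
    intro x
    have h1 : x ∈ Algebra.adjoin K0 {α} := by
      rw [htop]
      exact Algebra.mem_top
    have h2 : E.val x ∈ (Algebra.adjoin K0 {α}).map E.val := Subalgebra.mem_map.2 ⟨x, h1, rfl⟩
    rw [AlgHom.map_adjoin_singleton] at h2
    exact h2
  have ha : a ∈ E := IntermediateField.subset_adjoin K0 _ (by simp)
  have hb : b ∈ E := IntermediateField.subset_adjoin K0 _ (by simp)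
  exact ⟨α, hmap ⟨a, ha⟩, hmap ⟨b, hb⟩⟩

omit [CharZero K0] in
theorem adjoin_le_of_mem {Kb : Type*} [Field Kb] [Algebra K0 Kb]
    [Algebra Kb Ft] [IsScalarTower K0 Kb Ft] {a θ0 : Kb} (ha : a ∈ Algebra.adjoin K0 {θ0}) :
    Algebra.adjoin F0 {algebraMap Kb Ft a} ≤ Algebra.adjoin F0 {algebraMap Kb Ft θ0} := by
  refine Algebra.adjoin_le (Set.singleton_subset_iff.2 ?_)
  have ha' : a ∈ (aeval θ0 : K0[X] →ₐ[K0] Kb).range := by
    rw [← Algebra.adjoin_singleton_eq_range_aeval]
    exact ha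
  obtain ⟨g, hg⟩ := ha'
  have hg' : aeval θ0 g = a := hg
  have h1 : algebraMap Kb Ft a = aeval (algebraMap Kb Ft θ0) (g.map (algebraMap K0 F0)) := by
    rw [← hg', aeval_map_algebraMap, aeval_algebraMap_apply]
  rw [SetLike.mem_coe, h1]
  exact aeval_mem_adjoin_singleton F0 _

/-- **[UNRAM-CONST]**
Proof.  `Algebra.adjoin F₀ (range)` is the `F₀`-span of the range (`Algebra.adjoin_eq_span`, the range is
a submonoid), so `z = ∑ x_i c_i`, finitely many `c_i ∈ Kb`.  `K₀(c_i)` is finite separable over `K₀`: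
`= K₀(θ₀) = K₀[θ₀]` (`Field.exists_primitive_element`), hence `z ∈ F₀[θ]`, `θ` the image of `θ₀`. -/
theorem exists_zpow_of_constExt {Kb : Type*} [Field Kb] [Algebra K0 Kb] [Algebra.IsAlgebraic K0 Kb]
    [Algebra Kb Ft] [IsScalarTower K0 Kb Ft]
    (hgen : Algebra.adjoin F0 (Set.range (algebraMap Kb Ft)) = ⊤)
    (W : ValuationSubring F0)
    (hK : ∀ c : K0, algebraMap K0 F0 c ∈ W) (π : F0) (hπ0 : π ≠ 0) (hπ1 : W.valuation π < 1)
    (hπ : ∀ x : F0, x ≠ 0 → ∃ n : ℤ, W.valuation x = W.valuation π ^ n)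
    (P : ValuationSubring Ft) (hP : P.comap (algebraMap F0 Ft) = W) (z : Ft) (hz0 : z ≠ 0) :
    ∃ n : ℤ, P.valuation z = P.valuation (algebraMap F0 Ft π) ^ n := by
  have hz : z ∈ Algebra.adjoin F0 (Set.range (algebraMap Kb Ft)) := by
    rw [hgen]
    exact Algebra.mem_top
  have key : ∃ θ0 : Kb, z ∈ Algebra.adjoin F0 {algebraMap Kb Ft θ0} := by
    clear hz0
    induction hz using Algebra.adjoin_induction with
    | mem x hx =>
      obtain ⟨c, rfl⟩ := hx
      exact ⟨c, Algebra.subset_adjoin rfl⟩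
    | algebraMap r => exact ⟨0, Subalgebra.algebraMap_mem _ r⟩
    | add x y _ _ hx hy =>
      obtain ⟨a, ha⟩ := hx
      obtain ⟨b, hb⟩ := hy
      obtain ⟨θ0, h1, h2⟩ := exists_common_primitive (K0 := K0) a b
      exact ⟨θ0, add_mem (adjoin_le_of_mem h1 ha) (adjoin_le_of_mem h2 hb)⟩
    | mul x y _ _ hx hy =>
      obtain ⟨a, ha⟩ := hx
      obtain ⟨b, hb⟩ := hy
      obtain ⟨θ0, h1, h2⟩ := exists_common_primitive (K0 := K0) a b
      exact ⟨θ0, mul_mem (adjoin_le_of_mem h1 ha) (adjoin_le_of_mem h2 hb)⟩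
  obtain ⟨θ0, hθ0⟩ := key
  have halg : IsAlgebraic K0 (algebraMap Kb Ft θ0) :=
    (Algebra.IsAlgebraic.isAlgebraic θ0).algebraMap
  exact exists_zpow_of_mem_adjoin W hK π hπ0 hπ1 hπ P hP _ halg z hθ0 hz0

end main

end Fermat.Agent.S36.Kum
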